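/-
S18 / wave 4 (helper49): orthonormal bases of subspaces of `K^n` over a valuation ring.

`exists_orthonormal_pi` : for a valuation subring `A` of a field `K`, every `K`-subspace `V` of
`ι → K` (`ι` finite) has a basis `b` which is orthonormal for the lattice `A^ι`:
`∑ c i • b i ∈ A^ι ↔ ∀ i, c i ∈ A`.  (Echelon form; no hypothesis on `A`.)

`exists_orthonormal_of_le_span` : the same for a subspace of the span of an orthonormal family
in a `K`-vector space with a "unit ball" `O`.
-/
import Mathlib

set_option autoImplicit false

noncomputable section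

namespace Fermat.Agent.S18.H49

variable {K : Type*} [Field K] (A : ValuationSubring K)

/-- **Echelon lemma.** Every subspace of `ι → K` has a basis orthonormal for `A^ι`. -/
theorem exists_orthonormal_pi {ι : Type*} [Fintype ι] (V : Submodule K (ι → K)) :
    ∃ (d : ℕ) (b : Fin d → ι → K), LinearIndependent K b ∧
      Submodule.span K (Set.range b) = V ∧
      ∀ c : Fin d → K, (∀ a, (∑ i, c i • b i) a ∈ A) ↔ ∀ i, c i ∈ A := by
  classical
  induction h : Module.finrank K V using Nat.strong_induction_on generalizing V with
  | _ m ih =>
    by_cases hV : V = ⊥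
    · subst hV
      refine ⟨0, fun i => i.elim0, linearIndependent_empty_type, ?_, fun c => ?_⟩
      · simp
      · simp
    · obtain ⟨v, hvV, hv0⟩ := (Submodule.ne_bot_iff V).mp hV
      -- a coordinate of maximal valuation
      have hne : ∃ a, v a ≠ 0 := by
        by_contra hcon
        push Not at hcon
        exact hv0 (funext hcon)
      obtain ⟨a1, ha1⟩ := hne
      have : Nonempty ι := ⟨a1⟩
      obtain ⟨a₀, -, hmax⟩ := Finset.exists_max_image (Finset.univ : Finset ι)
        (fun a => A.valuation (v a)) Finset.univ_nonempty
      have hva₀ : v a₀ ≠ 0 := by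
        intro h0
        have h1 := hmax a1 (Finset.mem_univ _)
        rw [h0, map_zero] at h1
        exact ha1 ((map_eq_zero _).mp (le_antisymm h1 zero_le))
      set v' : ι → K := (v a₀)⁻¹ • v with hv'
      have hv'V : v' ∈ V := V.smul_mem _ hvV
      have hv'a₀ : v' a₀ = 1 := by simp [hv', hva₀]
      have hv'A : ∀ a, v' a ∈ A := by
        intro a
        rw [← ValuationSubring.valuation_le_one_iff, hv', Pi.smul_apply, smul_eq_mul, map_mul,
          map_inv₀]
        have h1 := hmax a (Finset.mem_univ _)
        have h2 : A.valuation (v a₀) ≠ 0 := (map_ne_zero _).mpr hva₀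
        rw [inv_mul_le_iff₀ (lt_of_le_of_ne zero_le (Ne.symm h2)), mul_one]
        exact h1
      set V' : Submodule K (ι → K) := V ⊓ LinearMap.ker (LinearMap.proj a₀ : (ι → K) →ₗ[K] K)
        with hV'
      have hV'le : V' ≤ V := inf_le_left
      have hV'a₀ : ∀ y ∈ V', y a₀ = 0 := fun y hy => by
        have := hy.2
        simpa using this
      have hv'V' : v' ∉ V' := fun hmem => one_ne_zero (hv'a₀.symm ▸ hV'a₀ v' hmem)
      have hlt : V' < V := lt_of_le_of_ne hV'le (fun heq => hv'V' (heq ▸ hv'V))
      have hfin : Module.finrank K V' < m := h ▸ Submodule.finrank_lt_finrank_of_lt hlt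
      obtain ⟨d, b', hli, hspan, horth⟩ := ih _ hfin V' rfl
      have hb'V' : ∀ i, b' i ∈ V' := fun i => hspan ▸ Submodule.subset_span ⟨i, rfl⟩
      refine ⟨d + 1, Fin.cons v' b', ?_, ?_, fun c => ?_⟩
      · rw [linearIndependent_finCons]
        exact ⟨hli, hspan ▸ hv'V'⟩
      · rw [Fin.range_cons, Submodule.span_insert, hspan]
        apply le_antisymm
        · exact sup_le ((Submodule.span_singleton_le_iff_mem _ _).mpr hv'V) hV'le
        · intro y hy
          have hy' : y - y a₀ • v' ∈ V' := by
            refine ⟨V.sub_mem hy (V.smul_mem _ hv'V), ?_⟩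
            simp [hv'a₀]
          have : y = y a₀ • v' + (y - y a₀ • v') := by abel
          rw [this]
          exact Submodule.add_mem_sup (Submodule.smul_mem _ _ (Submodule.mem_span_singleton_self _))
            hy'
      · have hsum : ∑ i, c i • (Fin.cons v' b' : Fin (d + 1) → ι → K) i =
            c 0 • v' + ∑ i : Fin d, c i.succ • b' i := by
          rw [Fin.sum_univ_succ]
          simp
        have hy'V' : ∑ i : Fin d, c i.succ • b' i ∈ V' :=
          V'.sum_mem fun i _ => V'.smul_mem _ (hb'V' i)
        rw [hsum]
        constructor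
        · intro hall
          have hc0 : c 0 ∈ A := by
            have := hall a₀
            simpa [hv'a₀, hV'a₀ _ hy'V'] using this
          have hrest : ∀ a, (∑ i : Fin d, c i.succ • b' i) a ∈ A := by
            intro a
            have h1 := hall a
            have h2 : (∑ i : Fin d, c i.succ • b' i) a =
                (c 0 • v' + ∑ i : Fin d, c i.succ • b' i) a - c 0 * v' a := by
              simp
            rw [h2]
            exact A.sub_mem h1 (A.mul_mem _ _ hc0 (hv'A a))
          have := (horth fun i => c i.succ).mp hrest
          intro i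
          refine Fin.cases hc0 (fun j => this j) i
        · intro hall a
          have hrest := (horth fun i => c i.succ).mpr (fun i => hall i.succ) a
          have : (c 0 • v' + ∑ i : Fin d, c i.succ • b' i) a =
              c 0 * v' a + (∑ i : Fin d, c i.succ • b' i) a := by simp
          rw [this]
          exact A.add_mem _ _ (A.mul_mem _ _ (hall 0) (hv'A a)) hrest

end Fermat.Agent.S18.H49
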