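/-
S18 / wave 4 (helper49): a function field with a Gauss valuation and an orthonormal
`K(x)`-basis is `K`-cartesian.

Setting (the fields `mem_iff`, `gauss`, `basis` of helper74's `Setup`, with the corrected
`gauss`): `A` a valuation subring of `K`, `A ≠ ⊤`; `O` a valuation subring of `F ⊇ K` with
`O ∩ K = A`; primitive polynomials in `x` are units of `O`; `θ` an orthonormal family over
`(K(x), Gauss)` spanning `F`.

Result (`cartesian_of_basis`): every finite-dimensional `K`-subspace `V` of `F` has a basis `b`,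
indexed by `Fin (finrank K V)`, with `∑ c i • b i ∈ O ↔ ∀ i, c i ∈ A`.
No discreteness / rank / completeness hypothesis on `A`.
-/
import Fermat.Agent.S18.H49.Echelon

set_option autoImplicit false

open IntermediateField Polynomial

noncomputable section

namespace Fermat.Agent.S18.H49

variable {K : Type*} [Field K] (A : ValuationSubring K)

/-- `A ≠ ⊤` gives an element outside `A`. -/
theorem exists_not_mem_of_ne_top (hA : A ≠ ⊤) : ∃ t : K, t ∉ A := by
  by_contra hcon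
  push Not at hcon
  exact hA (eq_top_iff.mpr fun t _ => hcon t)

/-- Orthonormal bases for subspaces of the span of an orthonormal family. -/
theorem exists_orthonormal_of_le_span (hA : A ≠ ⊤) {F : Type*} [AddCommGroup F] [Module K F]
    (O : Set F) {ι : Type*} [Fintype ι] (e : ι → F)
    (he : ∀ c : ι → K, (∑ j, c j • e j) ∈ O ↔ ∀ j, c j ∈ A)
    (V : Submodule K F) (hV : V ≤ Submodule.span K (Set.range e)) :
    ∃ (d : ℕ) (b : Fin d → F), LinearIndependent K b ∧ Submodule.span K (Set.range b) = V ∧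
      ∀ c : Fin d → K, (∑ i, c i • b i) ∈ O ↔ ∀ i, c i ∈ A := by
  classical
  set T : (ι → K) →ₗ[K] F := Fintype.linearCombination K e with hT
  have hTapp : ∀ c : ι → K, T c = ∑ j, c j • e j := fun c => Fintype.linearCombination_apply K e c
  have h0O : (0 : F) ∈ O := by
    have := (he 0).mpr (fun _ => A.zero_mem)
    simpa using this
  have hker : LinearMap.ker T = ⊥ := by
    rw [LinearMap.ker_eq_bot']
    intro c hc
    by_contra hc0
    obtain ⟨j, hj⟩ : ∃ j, c j ≠ 0 := by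
      by_contra hcon
      push Not at hcon
      exact hc0 (funext hcon)
    obtain ⟨t, ht⟩ := exists_not_mem_of_ne_top A hA
    have h1 : T ((t * (c j)⁻¹) • c) = 0 := by rw [map_smul, hc, smul_zero]
    have h2 := (he ((t * (c j)⁻¹) • c)).mp (by rw [← hTapp, h1]; exact h0O) j
    apply ht
    simpa [hj] using h2
  obtain ⟨d, b₀, hli, hspan, horth⟩ := exists_orthonormal_pi A (V.comap T)
  refine ⟨d, fun i => T (b₀ i), hli.map' T hker, ?_, fun c => ?_⟩
  · have h1 : Set.range (fun i => T (b₀ i)) = T '' Set.range b₀ := by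
      rw [← Set.range_comp]; rfl
    rw [h1, ← Submodule.map_span, hspan, Submodule.map_comap_eq, inf_eq_right]
    rw [hT, Fintype.range_linearCombination]
    exact hV
  · have h1 : ∑ i, c i • T (b₀ i) = ∑ j, (∑ i, c i • b₀ i) j • e j := by
      rw [← hTapp, map_sum]
      simp
    rw [h1, he]
    exact horth c

section Field

variable {F : Type*} [Field F] [Algebra K F] (O : ValuationSubring F) (x : F)

/-- The hypothesis "primitive polynomials in `x` are units of `O`" (corrected `Setup.gauss`). -/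
def GaussHyp : Prop :=
  ∀ p : K[X], (∀ i, p.coeff i ∈ A) → (∃ i, p.coeff i ≠ 0 ∧ (p.coeff i)⁻¹ ∈ A) →
    aeval x p ∈ O ∧ (aeval x p)⁻¹ ∈ O

variable {A O x}

/-- A nonzero polynomial is a constant times a primitive polynomial with a coefficient `1`. -/
theorem exists_primitive_factor {p : K[X]} (hp : p ≠ 0) :
    ∃ (c₀ : K) (p' : K[X]), c₀ ≠ 0 ∧ p = C c₀ * p' ∧ (∀ i, p'.coeff i ∈ A) ∧
      (∃ i, p'.coeff i = 1) ∧ ∀ i, A.valuation (p.coeff i) ≤ A.valuation c₀ := by
  classical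
  have hne : p.support.Nonempty := by
    rw [Finset.nonempty_iff_ne_empty, Ne, Polynomial.support_eq_empty]
    exact hp
  obtain ⟨i₀, hi₀, hmax⟩ := Finset.exists_max_image p.support
    (fun i => A.valuation (p.coeff i)) hne
  have hc₀ : p.coeff i₀ ≠ 0 := Polynomial.mem_support_iff.mp hi₀
  have hmax' : ∀ i, A.valuation (p.coeff i) ≤ A.valuation (p.coeff i₀) := by
    intro i
    by_cases hi : i ∈ p.support
    · exact hmax i hi
    · rw [Polynomial.notMem_support_iff.mp hi, map_zero]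
      exact zero_le
  refine ⟨p.coeff i₀, C (p.coeff i₀)⁻¹ * p, hc₀, ?_, fun i => ?_, ⟨i₀, ?_⟩, hmax'⟩
  · rw [← mul_assoc, ← C_mul, mul_inv_cancel₀ hc₀, C_1, one_mul]
  · rw [coeff_C_mul, ← ValuationSubring.valuation_le_one_iff, map_mul, map_inv₀]
    have h2 : A.valuation (p.coeff i₀) ≠ 0 := (_root_.map_ne_zero _).mpr hc₀
    rw [inv_mul_le_iff₀ (lt_of_le_of_ne zero_le (Ne.symm h2)), mul_one]
    exact hmax' i
  · rw [coeff_C_mul, inv_mul_cancel₀ hc₀]

/-- A polynomial with coefficients in `A` and a coefficient `1` does not vanish at `x`. -/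
theorem aeval_ne_zero_of_primitive (hA : A ≠ ⊤)
    (mem_iff : ∀ a : K, algebraMap K F a ∈ O ↔ a ∈ A) (gauss : GaussHyp A O x)
    {p : K[X]} (hpA : ∀ i, p.coeff i ∈ A) (hp1 : ∃ i, p.coeff i = 1) : aeval x p ≠ 0 := by
  intro h0
  obtain ⟨t, ht⟩ := exists_not_mem_of_ne_top A hA
  have ht0 : t ≠ 0 := fun h => ht (h ▸ A.zero_mem)
  have htinv : t⁻¹ ∈ A := (A.mem_or_inv_mem t).resolve_left ht
  obtain ⟨i₀, hi₀⟩ := hp1
  -- `p + C t⁻¹` is primitive and takes the value `t⁻¹` at `x`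
  have hcoeff : ∀ i, (p + C t⁻¹).coeff i ∈ A := by
    intro i
    rw [coeff_add, coeff_C]
    split_ifs
    · exact A.add_mem _ _ (hpA i) htinv
    · simpa using hpA i
  have hunit : ∃ i, (p + C t⁻¹).coeff i ≠ 0 ∧ ((p + C t⁻¹).coeff i)⁻¹ ∈ A := by
    refine ⟨i₀, ?_⟩
    rw [coeff_add, coeff_C, hi₀]
    split_ifs with hi
    · -- `1 + t⁻¹` is a unit of `A` because `t⁻¹` is a non-unit
      have hv : A.valuation t⁻¹ < 1 := by
        rw [map_inv₀]
        have h1 : 1 < A.valuation t := by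
          rw [← not_le, ValuationSubring.valuation_le_one_iff]; exact ht
        exact inv_lt_one_of_one_lt₀ h1
      have hv1 : A.valuation (1 + t⁻¹) = 1 := by
        have := Valuation.map_add_eq_of_lt_left A.valuation (x := (1 : K)) (y := t⁻¹)
          (by rw [map_one]; exact hv)
        rw [this, map_one]
      have hne : (1 : K) + t⁻¹ ≠ 0 := by
        intro h; rw [h, map_zero] at hv1; exact zero_ne_one hv1
      refine ⟨hne, ?_⟩
      rw [← ValuationSubring.valuation_le_one_iff, map_inv₀, hv1, inv_one]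
    · simp
  have h := (gauss _ hcoeff hunit).2
  have h1 : aeval x (p + C t⁻¹) = algebraMap K F t⁻¹ := by
    rw [map_add, h0, zero_add, aeval_C]
  rw [h1, ← map_inv₀, inv_inv] at h
  exact ht ((mem_iff t).mp h)

/-- `p(x) ∈ O` iff all coefficients of `p` lie in `A`. -/
theorem aeval_mem_iff (hA : A ≠ ⊤)
    (mem_iff : ∀ a : K, algebraMap K F a ∈ O ↔ a ∈ A) (gauss : GaussHyp A O x) (p : K[X]) :
    aeval x p ∈ O ↔ ∀ i, p.coeff i ∈ A := by
  by_cases hp : p = 0
  · subst hp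
    simp [O.zero_mem, A.zero_mem]
  obtain ⟨c₀, p', hc₀, hpp', hp'A, hp'1, hmax⟩ := exists_primitive_factor (A := A) hp
  have hunit : ∃ i, p'.coeff i ≠ 0 ∧ (p'.coeff i)⁻¹ ∈ A := by
    obtain ⟨i, hi⟩ := hp'1
    exact ⟨i, by rw [hi]; exact one_ne_zero, by rw [hi, inv_one]; exact A.one_mem⟩
  obtain ⟨h1, h2⟩ := gauss p' hp'A hunit
  have hne := aeval_ne_zero_of_primitive hA mem_iff gauss hp'A hp'1
  have heq : aeval x p = algebraMap K F c₀ * aeval x p' := by
    rw [hpp', map_mul, aeval_C]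
  constructor
  · intro hmem i
    have hc₀A : c₀ ∈ A := by
      rw [← mem_iff]
      have : algebraMap K F c₀ = aeval x p * (aeval x p')⁻¹ := by
        rw [heq, mul_assoc, mul_inv_cancel₀ hne, mul_one]
      rw [this]
      exact O.mul_mem _ _ hmem h2
    rw [← ValuationSubring.valuation_le_one_iff]
    exact (hmax i).trans ((ValuationSubring.valuation_le_one_iff A c₀).mpr hc₀A)
  · intro hall
    have hc₀A : c₀ ∈ A := by
      obtain ⟨i, hi⟩ := hp'1
      have := hall i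
      rw [hpp', coeff_C_mul, hi, mul_one] at this
      exact this
    rw [heq]
    exact O.mul_mem _ _ ((mem_iff c₀).mpr hc₀A) h1

/-- An orthonormal family over `(K(x), Gauss)` is linearly independent over `K(x)`. -/
theorem linearIndependent_of_orthonormal (hA : A ≠ ⊤)
    (mem_iff : ∀ a : K, algebraMap K F a ∈ O ↔ a ∈ A) {μ : ℕ} (θ : Fin μ → F)
    (hθ : ∀ r : Fin μ → K⟮x⟯, (∑ i, (r i : F) * θ i) ∈ O ↔ ∀ i, (r i : F) ∈ O) :
    LinearIndependent K⟮x⟯ θ := by
  rw [Fintype.linearIndependent_iff]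
  intro r hr i
  by_contra hri
  obtain ⟨t, ht⟩ := exists_not_mem_of_ne_top A hA
  set lam : K⟮x⟯ := algebraMap K K⟮x⟯ t * (r i)⁻¹ with hlam
  have h1 : ∑ j, ((lam * r j : K⟮x⟯) : F) * θ j = 0 := by
    have h : ∑ j, ((lam * r j : K⟮x⟯) : F) * θ j = (lam : F) * ∑ j, r j • θ j := by
      rw [Finset.mul_sum]
      refine Finset.sum_congr rfl fun j _ => ?_
      rw [Algebra.smul_def, IntermediateField.algebraMap_apply]
      push_cast
      ring
    rw [h, hr, mul_zero]
  have h2 := (hθ (fun j => lam * r j)).mp (by rw [h1]; exact O.zero_mem) i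
  have h3 : ((lam * r i : K⟮x⟯) : F) = algebraMap K F t := by
    rw [hlam, mul_assoc, inv_mul_cancel₀ hri, mul_one]
    rfl
  rw [h3] at h2
  exact ht ((mem_iff t).mp h2)

/-- Every element of `F` is a polynomial combination of the `θ i` over a polynomial
denominator. -/
theorem exists_poly_repr {μ : ℕ} (θ : Fin μ → F)
    (hθspan : ∀ f : F, ∃ r : Fin μ → K⟮x⟯, f = ∑ i, (r i : F) * θ i) (f : F) :
    ∃ (P : Fin μ → K[X]) (Q : K[X]), aeval x Q ≠ 0 ∧
      f * aeval x Q = ∑ i, aeval x (P i) * θ i := by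
  classical
  obtain ⟨r, hr⟩ := hθspan f
  have hrep : ∀ i, ∃ pq : K[X] × K[X], aeval x pq.2 ≠ 0 ∧
      (r i : F) * aeval x pq.2 = aeval x pq.1 := by
    intro i
    obtain ⟨p, q, hpq⟩ := (IntermediateField.mem_adjoin_simple_iff K (r i : F)).mp (r i).2
    by_cases hq : aeval x q = 0
    · refine ⟨(0, 1), by simp, ?_⟩
      rw [hpq, hq, div_zero]
      simp
    · exact ⟨(p, q), hq, by rw [hpq, div_mul_cancel₀ _ hq]⟩
  choose pq hq hpq using hrep
  refine ⟨fun i => (pq i).1 * ∏ j ∈ Finset.univ.erase i, (pq j).2, ∏ j, (pq j).2, ?_, ?_⟩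
  · rw [map_prod]
    exact Finset.prod_ne_zero_iff.mpr fun j _ => hq j
  · rw [hr, Finset.sum_mul]
    refine Finset.sum_congr rfl fun i _ => ?_
    rw [← Finset.mul_prod_erase Finset.univ (fun j => (pq j).2) (Finset.mem_univ i), map_mul,
      map_mul, ← hpq i]
    ring

/-- Finitely many elements of `F` have polynomial coordinates over one denominator which is a
unit of `O`. -/
theorem exists_common_repr (hA : A ≠ ⊤)
    (mem_iff : ∀ a : K, algebraMap K F a ∈ O ↔ a ∈ A) (gauss : GaussHyp A O x)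
    {μ : ℕ} (θ : Fin μ → F)
    (hθspan : ∀ f : F, ∃ r : Fin μ → K⟮x⟯, f = ∑ i, (r i : F) * θ i)
    {d : ℕ} (v : Fin d → F) :
    ∃ (P' : Fin d → Fin μ → K[X]) (S : F), S ∈ O ∧ S⁻¹ ∈ O ∧ S ≠ 0 ∧
      ∀ t, v t = S⁻¹ * ∑ i, aeval x (P' t i) * θ i := by
  classical
  have hrep : ∀ t, ∃ PQ : (Fin μ → K[X]) × K[X], aeval x PQ.2 ≠ 0 ∧
      v t * aeval x PQ.2 = ∑ i, aeval x (PQ.1 i) * θ i := by
    intro t
    obtain ⟨P, Q, hQ, h⟩ := exists_poly_repr θ hθspan (v t)
    exact ⟨(P, Q), hQ, h⟩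
  choose PQ hQ hPQ using hrep
  have hQx : aeval x (∏ t, (PQ t).2) ≠ 0 := by
    rw [map_prod]
    exact Finset.prod_ne_zero_iff.mpr fun t _ => hQ t
  have hQ0 : (∏ t, (PQ t).2) ≠ 0 := fun h => hQx (by rw [h, map_zero])
  obtain ⟨c₀, Q', hc₀, hQQ', hQ'A, hQ'1, -⟩ := exists_primitive_factor (A := A) hQ0
  have hQ'unit : ∃ i, Q'.coeff i ≠ 0 ∧ (Q'.coeff i)⁻¹ ∈ A := by
    obtain ⟨i, hi⟩ := hQ'1
    exact ⟨i, by rw [hi]; exact one_ne_zero, by rw [hi, inv_one]; exact A.one_mem⟩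
  obtain ⟨hS, hSinv⟩ := gauss Q' hQ'A hQ'unit
  have hSne : aeval x Q' ≠ 0 := aeval_ne_zero_of_primitive hA mem_iff gauss hQ'A hQ'1
  refine ⟨fun t i => C c₀⁻¹ * ((PQ t).1 i * ∏ t' ∈ Finset.univ.erase t, (PQ t').2),
    aeval x Q', hS, hSinv, hSne, fun t => ?_⟩
  have h1 : v t * aeval x (∏ t, (PQ t).2) =
      ∑ i, aeval x ((PQ t).1 i * ∏ t' ∈ Finset.univ.erase t, (PQ t').2) * θ i := by
    rw [← Finset.mul_prod_erase Finset.univ (fun t' => (PQ t').2) (Finset.mem_univ t),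
      map_mul, ← mul_assoc, hPQ t, Finset.sum_mul]
    refine Finset.sum_congr rfl fun i _ => ?_
    rw [map_mul]; ring
  have h2 : aeval x (∏ t, (PQ t).2) = algebraMap K F c₀ * aeval x Q' := by
    rw [hQQ', map_mul, aeval_C]
  have hc₀F : algebraMap K F c₀ ≠ 0 := by
    rw [Ne, map_eq_zero]; exact hc₀
  have h3 : ∑ i, aeval x (C c₀⁻¹ * ((PQ t).1 i * ∏ t' ∈ Finset.univ.erase t, (PQ t').2)) * θ i
      = (algebraMap K F c₀)⁻¹ * (v t * aeval x (∏ t, (PQ t).2)) := by
    rw [h1, Finset.mul_sum]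
    refine Finset.sum_congr rfl fun i _ => ?_
    rw [map_mul, aeval_C, map_inv₀]
    ring
  have h4 : (aeval x Q')⁻¹ * ((algebraMap K F c₀)⁻¹ * (v t * (algebraMap K F c₀ * aeval x Q')))
      = v t * ((algebraMap K F c₀)⁻¹ * algebraMap K F c₀) * ((aeval x Q')⁻¹ * aeval x Q') := by
    ring
  rw [h3, h2, h4, inv_mul_cancel₀ hc₀F, inv_mul_cancel₀ hSne, mul_one, mul_one]

/-- Coefficients of `∑ a, C (c a) * X ^ a`. -/
theorem coeff_sum_C_mul_X_pow {D : ℕ} (c : Fin D → K) (k : ℕ) :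
    (∑ a : Fin D, C (c a) * X ^ (a : ℕ)).coeff k = if h : k < D then c ⟨k, h⟩ else 0 := by
  classical
  simp only [finsetSum_coeff, coeff_C_mul, coeff_X_pow]
  split_ifs with h
  · rw [Finset.sum_eq_single (⟨k, h⟩ : Fin D)]
    · simp
    · intro a _ ha
      have : k ≠ (a : ℕ) := fun hk => ha (Fin.ext hk.symm)
      simp [this]
    · intro h'; exact absurd (Finset.mem_univ _) h'
  · refine Finset.sum_eq_zero fun a _ => ?_
    have : k ≠ (a : ℕ) := fun hk => h (hk ▸ a.2)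
    simp [this]

/-- The family `x ^ a * θ i / S` (`S` a unit of `O`) is orthonormal over `K`. -/
theorem orthonormal_monomials (hA : A ≠ ⊤)
    (mem_iff : ∀ a : K, algebraMap K F a ∈ O ↔ a ∈ A) (gauss : GaussHyp A O x)
    {μ : ℕ} (θ : Fin μ → F)
    (hθ : ∀ r : Fin μ → K⟮x⟯, (∑ i, (r i : F) * θ i) ∈ O ↔ ∀ i, (r i : F) ∈ O)
    {S : F} (hS : S ∈ O) (hSinv : S⁻¹ ∈ O) (hSne : S ≠ 0) (D : ℕ)
    (c : Fin μ × Fin D → K) :
    (∑ j, c j • (S⁻¹ * (x ^ (j.2 : ℕ) * θ j.1))) ∈ (O : Set F) ↔ ∀ j, c j ∈ A := by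
  classical
  have hsum : ∑ j, c j • (S⁻¹ * (x ^ (j.2 : ℕ) * θ j.1)) =
      S⁻¹ * ∑ i, aeval x (∑ a : Fin D, C (c (i, a)) * X ^ (a : ℕ)) * θ i := by
    rw [Fintype.sum_prod_type, Finset.mul_sum]
    refine Finset.sum_congr rfl fun i _ => ?_
    rw [map_sum, Finset.sum_mul, Finset.mul_sum]
    refine Finset.sum_congr rfl fun a _ => ?_
    rw [map_mul, aeval_C, map_pow, aeval_X, Algebra.smul_def]
    ring
  have hx : x ∈ K⟮x⟯ := IntermediateField.mem_adjoin_simple_self K x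
  have hpcmem : ∀ p : K[X], aeval x p ∈ K⟮x⟯ := fun p => by
    rw [aeval_eq_sum_range]
    exact sum_mem fun k _ => (K⟮x⟯).smul_mem (pow_mem hx k)
  have hθ' := hθ (fun i => ⟨aeval x (∑ a : Fin D, C (c (i, a)) * X ^ (a : ℕ)), hpcmem _⟩)
  rw [hsum, SetLike.mem_coe]
  constructor
  · intro h j
    have h0 : (∑ i, aeval x (∑ a : Fin D, C (c (i, a)) * X ^ (a : ℕ)) * θ i) ∈ O := by
      have := O.mul_mem _ _ hS h
      rwa [← mul_assoc, mul_inv_cancel₀ hSne, one_mul] at this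
    have h1 := (aeval_mem_iff hA mem_iff gauss _).mp (hθ'.mp h0 j.1) (j.2 : ℕ)
    rw [coeff_sum_C_mul_X_pow (fun a => c (j.1, a)), dif_pos j.2.2] at h1
    exact h1
  · intro h
    refine O.mul_mem _ _ hSinv (hθ'.mpr fun i => ?_)
    show aeval x (∑ a : Fin D, C (c (i, a)) * X ^ (a : ℕ)) ∈ O
    rw [aeval_mem_iff hA mem_iff gauss]
    intro k
    rw [coeff_sum_C_mul_X_pow (fun a => c (i, a))]
    split_ifs with hk
    · exact h _
    · exact A.zero_mem

/-- A reindexed form of the conclusion: from a basis indexed by `Fin d'`. -/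
theorem cartesian_cast {V : Submodule K F} [FiniteDimensional K V] {d' : ℕ} (b : Fin d' → F)
    (hli : LinearIndependent K b) (hspan : Submodule.span K (Set.range b) = V)
    (horth : ∀ c : Fin d' → K, (∑ i, c i • b i) ∈ (O : Set F) ↔ ∀ i, c i ∈ A) :
    ∃ b : Fin (Module.finrank K V) → F, (∀ i, b i ∈ V) ∧
      (∀ f ∈ V, ∃ c : Fin (Module.finrank K V) → K, f = ∑ i, c i • b i) ∧
      ∀ c : Fin (Module.finrank K V) → K, (∑ i, c i • b i) ∈ O ↔ ∀ i, c i ∈ A := by
  have hd' : Module.finrank K V = d' := by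
    have := finrank_span_eq_card hli
    rw [Fintype.card_fin] at this
    rw [← this, hspan]
  rw [hd']
  refine ⟨b, fun i => hspan ▸ Submodule.subset_span ⟨i, rfl⟩, fun f hf => ?_, fun c => horth c⟩
  rw [← hspan] at hf
  obtain ⟨c, hc⟩ := (Submodule.mem_span_range_iff_exists_fun K).mp hf
  exact ⟨c, hc.symm⟩

/-- **`F` is `K`-cartesian**: every finite-dimensional `K`-subspace of `F` has an orthonormal
basis.  (This is the field `cartesian` of the `Setup` structure of the S18 skeleton.) -/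
theorem cartesian_of_basis (hA : A ≠ ⊤)
    (mem_iff : ∀ a : K, algebraMap K F a ∈ O ↔ a ∈ A) (gauss : GaussHyp A O x)
    {μ : ℕ} (θ : Fin μ → F)
    (hθspan : ∀ f : F, ∃ r : Fin μ → K⟮x⟯, f = ∑ i, (r i : F) * θ i)
    (hθ : ∀ r : Fin μ → K⟮x⟯, (∑ i, (r i : F) * θ i) ∈ O ↔ ∀ i, (r i : F) ∈ O)
    (V : Submodule K F) [FiniteDimensional K V] :
    ∃ b : Fin (Module.finrank K V) → F, (∀ i, b i ∈ V) ∧
      (∀ f ∈ V, ∃ c : Fin (Module.finrank K V) → K, f = ∑ i, c i • b i) ∧
      ∀ c : Fin (Module.finrank K V) → K, (∑ i, c i • b i) ∈ O ↔ ∀ i, c i ∈ A := by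
  classical
  let v : Module.Basis (Fin (Module.finrank K V)) K V := Module.finBasis K V
  obtain ⟨P', S, hS, hSinv, hSne, hv⟩ :=
    exists_common_repr hA mem_iff gauss θ hθspan (fun t => (v t : F))
  -- the degree bound and the orthonormal family
  obtain ⟨D, hdeg⟩ : ∃ D : ℕ, ∀ t i, (P' t i).natDegree < D :=
    ⟨(Finset.univ.sup fun ti : Fin (Module.finrank K V) × Fin μ =>
        (P' ti.1 ti.2).natDegree) + 1, fun t i => Nat.lt_succ_of_le
      (Finset.le_sup (f := fun ti : Fin (Module.finrank K V) × Fin μ =>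
        (P' ti.1 ti.2).natDegree) (Finset.mem_univ (t, i)))⟩
  have he := orthonormal_monomials hA mem_iff gauss θ hθ hS hSinv hSne D
  have hVle : V ≤ Submodule.span K
      (Set.range fun j : Fin μ × Fin D => S⁻¹ * (x ^ (j.2 : ℕ) * θ j.1)) := by
    intro f hf
    have hfv : (⟨f, hf⟩ : V) ∈ Submodule.span K (Set.range v) := by
      rw [v.span_eq]; exact Submodule.mem_top
    have hmap : f ∈ (Submodule.span K (Set.range v)).map V.subtype := ⟨⟨f, hf⟩, hfv, rfl⟩
    rw [Submodule.map_span, ← Set.range_comp] at hmap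
    refine Submodule.span_le.mpr ?_ hmap
    rintro _ ⟨t, rfl⟩
    show (v t : F) ∈ _
    rw [hv t, Finset.mul_sum]
    refine Submodule.sum_mem _ fun i _ => ?_
    rw [aeval_eq_sum_range' (hdeg t i), Finset.sum_mul, Finset.mul_sum]
    refine Submodule.sum_mem _ fun a ha => ?_
    have ha' : a < D := Finset.mem_range.mp ha
    have : S⁻¹ * ((P' t i).coeff a • x ^ a * θ i) =
        (P' t i).coeff a • (S⁻¹ * (x ^ ((⟨a, ha'⟩ : Fin D) : ℕ) * θ i)) := by
      simp only [Algebra.smul_def]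
      ring
    rw [this]
    exact Submodule.smul_mem _ _ (Submodule.subset_span ⟨(i, ⟨a, ha'⟩), rfl⟩)
  obtain ⟨d', b, hli, hspan, horth⟩ := exists_orthonormal_of_le_span A hA (O : Set F) _ he V hVle
  exact cartesian_cast b hli hspan horth

/-- The `cartesian` field of the S18 `Setup` structure from its fields `mem_iff`, `gauss`
(corrected), `finite` and (the orthonormality half of) `basis`. -/
theorem cartesian_of_setup_fields (hA : A ≠ ⊤)
    (mem_iff : ∀ a : K, algebraMap K F a ∈ O ↔ a ∈ A) (gauss : GaussHyp A O x)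
    (finite : FiniteDimensional K⟮x⟯ F)
    (basis : ∃ θ : Fin (Module.finrank K⟮x⟯ F) → F,
      ∀ r : Fin (Module.finrank K⟮x⟯ F) → K⟮x⟯,
        (∑ i, (r i : F) * θ i) ∈ O ↔ ∀ i, (r i : F) ∈ O) :
    ∀ V : Submodule K F, FiniteDimensional K V →
      ∃ b : Fin (Module.finrank K V) → F, (∀ i, b i ∈ V) ∧
        (∀ f ∈ V, ∃ c : Fin (Module.finrank K V) → K, f = ∑ i, c i • b i) ∧
        ∀ c : Fin (Module.finrank K V) → K, (∑ i, c i • b i) ∈ O ↔ ∀ i, c i ∈ A := by
  intro V hV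
  obtain ⟨θ, hθ⟩ := basis
  have hli := linearIndependent_of_orthonormal hA mem_iff θ hθ
  have hpos : 0 < Module.finrank K⟮x⟯ F := Module.finrank_pos
  have hne : Nonempty (Fin (Module.finrank K⟮x⟯ F)) := ⟨⟨0, hpos⟩⟩
  let B : Module.Basis (Fin (Module.finrank K⟮x⟯ F)) K⟮x⟯ F :=
    basisOfLinearIndependentOfCardEqFinrank hli (by simp)
  have hB : ∀ i, B i = θ i := fun i => by
    simp only [B, coe_basisOfLinearIndependentOfCardEqFinrank]
  have hθspan : ∀ f : F, ∃ r : Fin (Module.finrank K⟮x⟯ F) → K⟮x⟯,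
      f = ∑ i, (r i : F) * θ i := by
    intro f
    refine ⟨fun i => B.repr f i, ?_⟩
    conv_lhs => rw [← B.sum_repr f]
    refine Finset.sum_congr rfl fun i _ => ?_
    rw [hB, Algebra.smul_def, IntermediateField.algebraMap_apply]
  exact cartesian_of_basis hA mem_iff gauss θ hθspan hθ V

end Field

end Fermat.Agent.S18.H49
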