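/-
S18 / Program J / leaf C1 = `exists_clear` (Key Lemma + tubes): the two F-level packages used by
the C1 sub-skeleton (helper49).  Definitions only; final.

`IsMinTuple A O x b θ` : output of D3 (minimal tuple), in `Place` language.
`KeyHyp A O x b`       : F-level input of the Key Lemma on the residue disc of `b`
                         (D3 tuple + D4 discriminant count + D5 nilpotents).
-/
import Fermat.Agent.S18.H74.CoreDefs

set_option autoImplicit false

open AlgebraicCurve IntermediateField Fermat.Agent.S18.H74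

noncomputable section

namespace Fermat.Agent.S18.H49

variable {K : Type*} [Field K] {F : Type*} [Field F] [Algebra K F]

/-- Output of D3 (minimal tuple), in `Place` language: `θ ∈ S_b^μ`, orthonormal over
`(K(x), Gauss)`, a local integral basis over every point `c` of the residue disc of `b`, and
`S_b = ⊕ R_b θ_i`. -/
structure IsMinTuple (A : ValuationSubring K) (O : ValuationSubring F) (x : F) (b : K) {μ : ℕ}
    (θ : Fin μ → F) : Prop where
  /-- `θ_i ∈ S_b`. -/
  mem : ∀ i, θ i ∈ discRing A O x b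
  /-- orthonormal over `(K(x), O ∩ K(x))`. -/
  on : ∀ r : Fin μ → K⟮x⟯, (∑ i, (r i : F) * θ i) ∈ O ↔ ∀ i, (r i : F) ∈ O
  /-- local integral basis at every point `c` of the disc. -/
  loc : ∀ c : K, c - b ∈ A.nonunits → ∀ r : Fin μ → K⟮x⟯,
    (∀ P : Place K F, 0 < P.ord (x - algebraMap K F c) → 0 ≤ P.ord (∑ i, (r i : F) * θ i)) →
    ∀ i, ∀ P : Place K F, 0 < P.ord (x - algebraMap K F c) → 0 ≤ P.ord (r i : F)
  /-- `S_b = ⊕ R_b θ_i` (consequence of `on` and `loc`). -/
  coord : ∀ r : Fin μ → K⟮x⟯, (∑ i, (r i : F) * θ i) ∈ discRing A O x b →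
    ∀ i, (r i : F) ∈ discRing A O x b

/-- The F-level input of the Key Lemma on the residue disc of `b`:
a minimal tuple `θ` (D3), a point `b0` of the disc, the factorisation
`gramDet θ = (x - b0)^n ε` with `ε ∈ R_b^×` (D4), and `r ≥ n` saturated nilpotents
`Y_k = ∑ v_{k,i} θ_i` modulo `(x - b0)` (D5). -/
def KeyHyp (A : ValuationSubring K) (O : ValuationSubring F) (x : F) (b : K) : Prop :=
  ∃ (θ : Fin (Module.finrank K⟮x⟯ F) → F) (b0 : K) (n : ℕ) (ε : K⟮x⟯) (r : ℕ)
    (v : Fin r → Fin (Module.finrank K⟮x⟯ F) → K),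
    IsMinTuple A O x b θ ∧ b0 - b ∈ A.nonunits ∧
    ((gramDet K F x θ : K⟮x⟯) : F) = (x - algebraMap K F b0) ^ n * (ε : F) ∧
    (ε : F) ∈ discRing A O x b ∧ (ε : F)⁻¹ ∈ discRing A O x b ∧
    n ≤ r ∧ (∀ k i, v k i ∈ A) ∧
    (∀ c : Fin r → K, (∀ i, (∑ k, c k • v k) i ∈ A.nonunits) → ∀ k, c k ∈ A.nonunits) ∧
    ∀ k, ∃ w ∈ discRing A O x b,
      (∑ i, v k i • θ i) ^ (Module.finrank K⟮x⟯ F + 1) = (x - algebraMap K F b0) * w

end Fermat.Agent.S18.H49
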