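/-
S18 / Program J / leaf C1 (helper49): glue nodes of the C1 sub-skeleton (complete proofs), in
explicit-hypothesis form.

* `mem_discRing_iff` + closure lemmas for the disc ring `S_b`.
* `exists_branch_centre` : all points of a residue disc except (possibly) one are unramified.
* `mo_of_scale`   : (MO)  `m_O ∩ S_b = m_A S_b`   (from `Setup.scale` alone).
* `ev_of_oneUnit` : (EV)  values of `S_b` on the disc lie in `A`   (from C1-ONE alone).
* `disc_count_of` : (D4)  `gramDet θ = (x - b0)^n ε`, `ε ∈ R_b^×`, `n + #{P | b0} ≤ μ`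
                    (from the tame bound at every point of the disc + unit Gram determinant).
-/
import Fermat.Agent.S18.H49.C1Defs
import Fermat.Agent.S18.H42.Fibres
import Fermat.Agent.S24.Residue
import Fermat.Agent.S24.Ord

set_option autoImplicit false
set_option linter.style.haveILetI false

open AlgebraicCurve IntermediateField Fermat.Agent.S18.H74

noncomputable section

namespace Fermat.Agent.S18.H49

variable {K : Type*} [Field K] {A : ValuationSubring K} {F : Type*} [Field F] [Algebra K F]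
  {O : ValuationSubring F} {x : F}

/-! ### The disc ring -/

theorem ord_nonneg_iff_mem (P : Place K F) (f : F) : 0 ≤ P.ord f ↔ f ∈ P.toValuationSubring := by
  by_cases hf : f = 0
  · subst hf
    simp only [Place.ord_zero, le_refl, true_iff]
    exact P.toValuationSubring.zero_mem
  · exact (Fermat.Agent.S24.mem_iff_ord_nonneg P hf).symm

theorem mem_discRing_iff (b : K) (f : F) :
    f ∈ discRing A O x b ↔ f ∈ O ∧ ∀ P : Place K F, InDisc A x b P → f ∈ P.toValuationSubring := by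
  simp only [discRing, Set.mem_ofPred_eq, ord_nonneg_iff_mem]

theorem zero_mem_discRing (b : K) : (0 : F) ∈ discRing A O x b :=
  (mem_discRing_iff b 0).mpr ⟨O.zero_mem, fun P _ => P.toValuationSubring.zero_mem⟩

theorem one_mem_discRing (b : K) : (1 : F) ∈ discRing A O x b :=
  (mem_discRing_iff b 1).mpr ⟨O.one_mem, fun P _ => P.toValuationSubring.one_mem⟩

theorem add_mem_discRing {b : K} {f g : F} (hf : f ∈ discRing A O x b)
    (hg : g ∈ discRing A O x b) : f + g ∈ discRing A O x b := by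
  rw [mem_discRing_iff] at hf hg ⊢
  exact ⟨O.add_mem _ _ hf.1 hg.1, fun P hP => P.toValuationSubring.add_mem _ _ (hf.2 P hP) (hg.2 P hP)⟩

theorem mul_mem_discRing {b : K} {f g : F} (hf : f ∈ discRing A O x b)
    (hg : g ∈ discRing A O x b) : f * g ∈ discRing A O x b := by
  rw [mem_discRing_iff] at hf hg ⊢
  exact ⟨O.mul_mem _ _ hf.1 hg.1, fun P hP => P.toValuationSubring.mul_mem _ _ (hf.2 P hP) (hg.2 P hP)⟩

theorem neg_mem_discRing {b : K} {f : F} (hf : f ∈ discRing A O x b) :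
    -f ∈ discRing A O x b := by
  rw [mem_discRing_iff] at hf ⊢
  exact ⟨O.neg_mem _ hf.1, fun P hP => P.toValuationSubring.neg_mem _ (hf.2 P hP)⟩

theorem sub_mem_discRing {b : K} {f g : F} (hf : f ∈ discRing A O x b)
    (hg : g ∈ discRing A O x b) : f - g ∈ discRing A O x b := by
  rw [sub_eq_add_neg]
  exact add_mem_discRing hf (neg_mem_discRing hg)

theorem pow_mem_discRing {b : K} {f : F} (hf : f ∈ discRing A O x b) (n : ℕ) :
    f ^ n ∈ discRing A O x b := by
  induction n with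
  | zero => rw [pow_zero]; exact one_mem_discRing b
  | succ n ih => rw [pow_succ]; exact mul_mem_discRing ih hf

theorem sum_mem_discRing {b : K} {ι : Type*} (s : Finset ι) (f : ι → F)
    (hf : ∀ i ∈ s, f i ∈ discRing A O x b) : ∑ i ∈ s, f i ∈ discRing A O x b := by
  classical
  induction s using Finset.induction_on with
  | empty => rw [Finset.sum_empty]; exact zero_mem_discRing b
  | insert a s ha ih =>
    rw [Finset.sum_insert ha]
    exact add_mem_discRing (hf a (Finset.mem_insert_self a s))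
      (ih fun i hi => hf i (Finset.mem_insert_of_mem hi))

theorem algebraMap_mem_discRing (hmem : ∀ a : K, algebraMap K F a ∈ O ↔ a ∈ A) (b : K) {a : K}
    (ha : a ∈ A) : algebraMap K F a ∈ discRing A O x b :=
  (mem_discRing_iff b _).mpr ⟨(hmem a).mpr ha, fun P _ => P.algebraMap_mem' a⟩

/-- `m_O ∩ K = m_A`. -/
theorem algebraMap_mem_nonunits_iff (hmem : ∀ a : K, algebraMap K F a ∈ O ↔ a ∈ A) (a : K) :
    algebraMap K F a ∈ O.nonunits ↔ a ∈ A.nonunits := by
  rw [ValuationSubring.mem_nonunits_iff_or, ValuationSubring.mem_nonunits_iff_or, ← map_inv₀,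
    hmem, map_eq_zero]

theorem mul_mem_nonunits_of_mem {a s : F} (ha : a ∈ O.nonunits) (hs : s ∈ O) :
    a * s ∈ O.nonunits := by
  rw [ValuationSubring.mem_nonunits_iff] at ha ⊢
  rw [map_mul]
  have h1 : O.valuation s ≤ 1 := (O.valuation_le_one_iff s).mpr hs
  calc O.valuation a * O.valuation s ≤ O.valuation a * 1 := by gcongr
    _ < 1 := by rw [mul_one]; exact ha

/-- `Setup.gauss` for the linear polynomials `X - c`, `c ∈ A`. -/
theorem gauss_lin
    (hgauss : ∀ p : Polynomial K, (∀ i, p.coeff i ∈ A) →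
      (∃ i, p.coeff i ≠ 0 ∧ (p.coeff i)⁻¹ ∈ A) →
      Polynomial.aeval x p ∈ O ∧ (Polynomial.aeval x p)⁻¹ ∈ O) {c : K} (hc : c ∈ A) :
    x - algebraMap K F c ∈ O ∧ (x - algebraMap K F c)⁻¹ ∈ O := by
  have h1 := hgauss (Polynomial.X - Polynomial.C c) (fun i => ?_) ⟨1, ?_, ?_⟩
  · simpa using h1
  · rw [Polynomial.coeff_sub, Polynomial.coeff_X, Polynomial.coeff_C]
    by_cases h1 : 1 = i
    · subst h1
      simp [A.one_mem]
    · by_cases h0 : i = 0
      · subst h0
        simp [hc]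
      · simp [h1, h0, A.zero_mem]
  · simp [Polynomial.coeff_X]
  · simp [Polynomial.coeff_X, A.one_mem]

/-! ### The branch centre of a residue disc -/

/-- All points of the residue disc of `b` except (possibly) `b0` are unramified. -/
theorem exists_branch_centre (hS : Setup K A F O x) (b : K) (hb : b ∈ A) :
    ∃ b0 : K, b0 ∈ A ∧ b0 - b ∈ A.nonunits ∧
      ∀ c : K, c - b ∈ A.nonunits → c ≠ b0 → ∀ P : Place K F,
        0 < P.ord (x - algebraMap K F c) → P.ord (x - algebraMap K F c) = 1 := by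
  obtain ⟨S, hSA, hSinc, hSbr⟩ := hS.branch
  by_cases h : ∃ c0 ∈ S, c0 - b ∈ A.nonunits
  · obtain ⟨c0, hc0S, hc0⟩ := h
    refine ⟨c0, hSA c0 hc0S, hc0, fun c hc hne P hP => hSbr P c ?_ hP⟩
    intro hcS
    have h1 := hSinc c hcS c0 hc0S hne
    have h2 : c - c0 ∈ A.nonunits := by
      have := A.nonunits.sub_mem hc hc0
      simpa using this
    rw [ValuationSubring.mem_nonunits_iff_or] at h2
    rcases h2 with h2 | h2
    · exact hne (sub_eq_zero.mp h2)
    · exact h2 h1
  · push Not at h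
    refine ⟨b, hb, ?_, fun c hc _ P hP => hSbr P c (fun hcS => h c hcS hc) hP⟩
    rw [sub_self]
    exact A.nonunits.zero_mem

/-! ### (MO) -/

/-- **(MO)** `m_O ∩ S_b = m_A S_b`, from `Setup.scale` alone. -/
theorem mo_of_scale (hmem : ∀ a : K, algebraMap K F a ∈ O ↔ a ∈ A)
    (hscale : ∀ f : F, f ≠ 0 →
      ∃ c : K, c ≠ 0 ∧ algebraMap K F c * f ∈ O ∧ (algebraMap K F c * f)⁻¹ ∈ O)
    (b : K) (e : F) (he : e ∈ discRing A O x b) (heO : e ∈ O.nonunits) :
    ∃ a ∈ A.nonunits, ∃ s ∈ discRing A O x b, e = algebraMap K F a * s := by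
  by_cases h0 : e = 0
  · exact ⟨0, A.nonunits.zero_mem, 0, zero_mem_discRing b, by rw [h0, mul_zero]⟩
  obtain ⟨c, hc0, h1, h2⟩ := hscale e h0
  have hcF : algebraMap K F c ≠ 0 := by simpa using hc0
  refine ⟨c⁻¹, ?_, algebraMap K F c * e, ?_, ?_⟩
  · rw [← algebraMap_mem_nonunits_iff hmem]
    have h3 : algebraMap K F c⁻¹ = e * (algebraMap K F c * e)⁻¹ := by
      rw [map_inv₀, mul_inv]
      field_simp
    rw [h3]
    exact mul_mem_nonunits_of_mem heO h2
  · rw [mem_discRing_iff] at he ⊢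
    exact ⟨h1, fun P hP => P.toValuationSubring.mul_mem _ _ (P.algebraMap_mem' c) (he.2 P hP)⟩
  · rw [map_inv₀]
    field_simp

/-- **(MO)** in `Setup` form. -/
theorem mo_disc (hS : Setup K A F O x) (b : K) (e : F) (he : e ∈ discRing A O x b)
    (heO : e ∈ O.nonunits) :
    ∃ a ∈ A.nonunits, ∃ s ∈ discRing A O x b, e = algebraMap K F a * s :=
  mo_of_scale hS.mem_iff hS.scale b e he heO

/-! ### (EV) -/

/-- **(EV)** the values of the functions of `S_b` at the places of the disc lie in `A`: otherwise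
`1 - c⁻¹ s` would be a one-unit of `S_b` with a zero on the disc, against C1-ONE. -/
theorem ev_of_oneUnit (hmem : ∀ a : K, algebraMap K F a ∈ O ↔ a ∈ A) (b : K)
    (hone : ∀ y : F, y - 1 ∈ O.nonunits → ∃ s : Finset (Place K F),
      (∀ P ∈ s, InDisc A x b P) ∧
      (∀ P : Place K F, InDisc A x b P → P.ord y ≠ 0 → P ∈ s) ∧ ∑ P ∈ s, P.ord y = 0)
    (s : F) (hs : s ∈ discRing A O x b) (P : Place K F) (hP : InDisc A x b P) (c : K)
    (hc : 0 < P.ord (s - algebraMap K F c)) : c ∈ A := by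
  by_contra hcA
  have hc0 : c ≠ 0 := fun h => hcA (h ▸ A.zero_mem)
  have hcF : algebraMap K F c ≠ 0 := by simpa using hc0
  have hci : c⁻¹ ∈ A.nonunits := by
    rw [ValuationSubring.inv_mem_nonunits_iff]
    exact Or.inr hcA
  have hs' := (mem_discRing_iff b s).mp hs
  have hyeq : 1 - algebraMap K F c⁻¹ * s = -(algebraMap K F c⁻¹) * (s - algebraMap K F c) := by
    rw [map_inv₀]
    field_simp
    ring
  have hy1 : (1 - algebraMap K F c⁻¹ * s) - 1 ∈ O.nonunits := by
    have h1 : (1 - algebraMap K F c⁻¹ * s) - 1 = -(algebraMap K F c⁻¹ * s) := by ring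
    rw [h1]
    exact O.nonunits.neg_mem
      (mul_mem_nonunits_of_mem ((algebraMap_mem_nonunits_iff hmem _).mpr hci) hs'.1)
  obtain ⟨t, ht1, ht2, ht3⟩ := hone _ hy1
  have hsc0 : s - algebraMap K F c ≠ 0 := Fermat.Agent.S24.H94.ne_zero_of_ord_pos P hc
  have hci0 : -(algebraMap K F c⁻¹) ≠ 0 := by
    rw [neg_ne_zero]
    simpa using hc0
  have hordy : ∀ P' : Place K F,
      P'.ord (1 - algebraMap K F c⁻¹ * s) = P'.ord (s - algebraMap K F c) := by
    intro P'
    rw [hyeq, P'.ord_mul hci0 hsc0, Fermat.Agent.S24.ord_neg,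
      Fermat.Agent.S24.ord_algebraMap P' (inv_ne_zero hc0), zero_add]
  have hnonneg : ∀ P' ∈ t, 0 ≤ P'.ord (1 - algebraMap K F c⁻¹ * s) := by
    intro P' hP'
    rw [hordy, ord_nonneg_iff_mem]
    exact P'.toValuationSubring.sub_mem (hs'.2 P' (ht1 P' hP')) (P'.algebraMap_mem' c)
  have hPt : P ∈ t := ht2 P hP (by rw [hordy]; omega)
  have h0 := (Finset.sum_eq_zero_iff_of_nonneg hnonneg).mp ht3 P hPt
  rw [hordy] at h0
  omega

/-! ### (D4) the discriminant count -/

/-- An orthonormal family over `(K(x), Gauss)` is linearly independent over `K(x)`. -/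
theorem linearIndependent_of_on (hA : A ≠ ⊤) (hmem : ∀ a : K, algebraMap K F a ∈ O ↔ a ∈ A)
    {μ : ℕ} (θ : Fin μ → F)
    (hon : ∀ r : Fin μ → K⟮x⟯, (∑ i, (r i : F) * θ i) ∈ O ↔ ∀ i, (r i : F) ∈ O) :
    LinearIndependent K⟮x⟯ θ := by
  rw [Fintype.linearIndependent_iff]
  intro r hr i₀
  by_contra hne
  obtain ⟨a, ha⟩ : ∃ a : K, a ∉ A := by
    by_contra hcon
    push Not at hcon
    exact hA (eq_top_iff.mpr fun t _ => hcon t)
  have h1 := (hon fun i => algebraMap K K⟮x⟯ a * (r i₀)⁻¹ * r i).mp (by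
    have h2 : ∑ i, ((algebraMap K K⟮x⟯ a * (r i₀)⁻¹ * r i : K⟮x⟯) : F) * θ i
        = ((algebraMap K K⟮x⟯ a * (r i₀)⁻¹ : K⟮x⟯) : F) * ∑ i, r i • θ i := by
      rw [Finset.mul_sum]
      refine Finset.sum_congr rfl fun i _ => ?_
      rw [IntermediateField.smul_def, smul_eq_mul]
      push_cast
      ring
    rw [h2, hr, mul_zero]
    exact O.zero_mem) i₀
  apply ha
  rw [← hmem]
  have h3 : ((algebraMap K K⟮x⟯ a * (r i₀)⁻¹ * r i₀ : K⟮x⟯) : F) = algebraMap K F a := by
    rw [inv_mul_cancel_right₀ hne]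
    rfl
  rwa [h3] at h1

/-- The Gram determinant of an orthonormal family of `[F : K(x)]` elements is nonzero
(characteristic zero). -/
theorem gramDet_ne_zero [CharZero K] [FiniteDimensional K⟮x⟯ F] (hA : A ≠ ⊤)
    (hmem : ∀ a : K, algebraMap K F a ∈ O ↔ a ∈ A)
    (θ : Fin (Module.finrank K⟮x⟯ F) → F)
    (hon : ∀ r : Fin (Module.finrank K⟮x⟯ F) → K⟮x⟯,
      (∑ i, (r i : F) * θ i) ∈ O ↔ ∀ i, (r i : F) ∈ O) :
    gramDet K F x θ ≠ 0 := by
  have hli := linearIndependent_of_on hA hmem θ hon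
  have : CharZero K⟮x⟯ := charZero_of_injective_algebraMap (algebraMap K K⟮x⟯).injective
  have : Nonempty (Fin (Module.finrank K⟮x⟯ F)) := Fin.pos_iff_nonempty.mp Module.finrank_pos
  have h := Algebra.discr_not_zero_of_basis K⟮x⟯
    (basisOfLinearIndependentOfCardEqFinrank hli (by simp))
  rw [coe_basisOfLinearIndependentOfCardEqFinrank] at h
  exact h

/-- At a place over `c ≠ b0`, the function `x - b0` is a unit. -/
theorem ord_sub_eq_zero_of_over (P : Place K F) {c b0 : K} (hne : c ≠ b0)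
    (hP : 0 < P.ord (x - algebraMap K F c)) : P.ord (x - algebraMap K F b0) = 0 := by
  have h1 : x - algebraMap K F b0 = algebraMap K F (c - b0) + (x - algebraMap K F c) := by
    rw [map_sub]; ring
  have hcb : c - b0 ≠ 0 := sub_ne_zero.mpr hne
  have hcbF : algebraMap K F (c - b0) ≠ 0 := (map_ne_zero _).mpr hcb
  have h2 := Fermat.Agent.S24.ord_add_eq_of_lt P hcbF (g := x - algebraMap K F c)
    (Or.inr (by rw [Fermat.Agent.S24.ord_algebraMap P hcb]; exact hP))
  rw [h1, h2.2, Fermat.Agent.S24.ord_algebraMap P hcb]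

/-- **(D4)** `gramDet θ = (x - b0)^n ε` with `ε ∈ R_b^×` and `n + #{P over b0} ≤ μ`, from the
tame bound `htame` at every point of the disc (`tame_local`) and the unit Gram determinant. -/
theorem disc_count_of [IsAlgClosed K] [CharZero K] (hx : Transcendental K x)
    [FiniteDimensional K⟮x⟯ F] (hA : A ≠ ⊤) (hmem : ∀ a : K, algebraMap K F a ∈ O ↔ a ∈ A)
    (hlin : ∀ c ∈ A, (x - algebraMap K F c) ∈ O ∧ (x - algebraMap K F c)⁻¹ ∈ O)
    (b : K) (hb : b ∈ A) (θ : Fin (Module.finrank K⟮x⟯ F) → F) (hθ : IsMinTuple A O x b θ)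
    (hunit : ((gramDet K F x θ : K⟮x⟯) : F) ∈ O ∧ ((gramDet K F x θ : K⟮x⟯) : F)⁻¹ ∈ O)
    (htame : ∀ c : K, c - b ∈ A.nonunits → ∀ T : Finset (Place K F),
      (∀ P, P ∈ T ↔ 0 < P.ord (x - algebraMap K F c)) →
      ∃ (n : ℕ) (ε : K⟮x⟯), n + T.card ≤ Module.finrank K⟮x⟯ F ∧
        ((gramDet K F x θ : K⟮x⟯) : F) = (x - algebraMap K F c) ^ n * (ε : F) ∧
        ∀ P : Place K F, 0 < P.ord (x - algebraMap K F c) → P.ord (ε : F) = 0)
    (b0 : K) (hb0 : b0 - b ∈ A.nonunits)
    (hbr : ∀ c : K, c - b ∈ A.nonunits → c ≠ b0 → ∀ P : Place K F,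
      0 < P.ord (x - algebraMap K F c) → P.ord (x - algebraMap K F c) = 1)
    (T : Finset (Place K F)) (hT : ∀ P, P ∈ T ↔ 0 < P.ord (x - algebraMap K F b0)) :
    ∃ (n : ℕ) (ε : K⟮x⟯), n + T.card ≤ Module.finrank K⟮x⟯ F ∧
      ((gramDet K F x θ : K⟮x⟯) : F) = (x - algebraMap K F b0) ^ n * (ε : F) ∧
      (ε : F) ∈ discRing A O x b ∧ (ε : F)⁻¹ ∈ discRing A O x b := by
  obtain ⟨n, ε, hn, hε, hεord⟩ := htame b0 hb0 T hT
  have hd0 : ((gramDet K F x θ : K⟮x⟯) : F) ≠ 0 := by
    have := gramDet_ne_zero hA hmem θ hθ.on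
    simpa using this
  have hb0A : b0 ∈ A := by
    have := A.add_mem _ _ (A.nonunits_le hb0) hb
    simpa using this
  have ht0 : x - algebraMap K F b0 ≠ 0 := fun h =>
    hx ⟨Polynomial.X - Polynomial.C b0, Polynomial.X_sub_C_ne_zero b0, by simpa using h⟩
  have hε0 : (ε : F) ≠ 0 := by
    intro h
    rw [h, mul_zero] at hε
    exact hd0 hε
  have hεeq : (ε : F) = ((gramDet K F x θ : K⟮x⟯) : F) * ((x - algebraMap K F b0)⁻¹) ^ n := by
    rw [hε, mul_right_comm, ← mul_pow, mul_inv_cancel₀ ht0, one_pow, one_mul]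
  -- `ε` is a Gauss unit
  have hεO : (ε : F) ∈ O := by
    rw [hεeq]
    exact O.mul_mem _ _ hunit.1 (pow_mem (hlin b0 hb0A).2 n)
  have hεO' : (ε : F)⁻¹ ∈ O := by
    rw [hεeq, mul_inv, ← inv_pow, inv_inv]
    exact O.mul_mem _ _ hunit.2 (pow_mem (hlin b0 hb0A).1 n)
  -- `ε` has neither zeros nor poles on the disc
  have hord : ∀ P : Place K F, InDisc A x b P → P.ord (ε : F) = 0 := by
    rintro P ⟨c, hc, hP⟩
    by_cases hcb : c = b0
    · subst hcb
      exact hεord P hP
    · have hT' : ∀ P', P' ∈ (Fermat.Agent.S18.H42.finite_over x hx c).toFinset ↔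
          0 < P'.ord (x - algebraMap K F c) := fun P' => by
        rw [Set.Finite.mem_toFinset]; rfl
      obtain ⟨n', ε', hn', hε', hεord'⟩ := htame c hc _ hT'
      have hsum := Fermat.Agent.S18.H42.sum_ord_over_toFinset x hx c
      have hcard : ((Fermat.Agent.S18.H42.finite_over x hx c).toFinset.card : ℤ)
          = (Module.finrank K⟮x⟯ F : ℤ) := by
        rw [← hsum, Finset.sum_congr rfl fun P' hP' => hbr c hc hcb P' ((hT' P').mp hP')]
        simp
      have hn0 : n' = 0 := by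
        have : (Fermat.Agent.S18.H42.finite_over x hx c).toFinset.card
            = Module.finrank K⟮x⟯ F := by exact_mod_cast hcard
        omega
      rw [hn0, pow_zero, one_mul] at hε'
      have h1 : P.ord ((gramDet K F x θ : K⟮x⟯) : F) = 0 := by
        rw [hε']
        exact hεord' P hP
      have h2 : P.ord (x - algebraMap K F b0) = 0 := ord_sub_eq_zero_of_over P hcb hP
      have h3 := P.ord_mul (pow_ne_zero n ht0) hε0
      rw [← hε, h1, Fermat.Agent.S24.ord_pow, h2, mul_zero, zero_add] at h3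
      exact h3.symm
  refine ⟨n, ε, hn, hε, ⟨hεO, fun P hP => by rw [hord P hP]⟩, ⟨hεO', fun P hP => ?_⟩⟩
  rw [P.ord_inv, hord P hP, neg_zero]

end Fermat.Agent.S18.H49
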