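/-
S18 / wave 4 (helper49): leaf C1-D5 (nilpotents without idempotent lifting), abstract form.

Setting: `θ : Fin μ → F` elements of the disc ring `S_b`, `T` the (finite) set of places over a
point `b0` of the residue disc of `b`, each with residue field `K` and ramification index `≤ μ`.

`exists_ker_orthonormal` : the `K`-space of coefficient vectors `c` with `∑ c_i θ_i` vanishing at
every place of `T` has codimension `≤ |T|` and an orthonormal basis `v_1, …, v_r` in `A^μ`.

`exists_nilpotents` : the elements `Y_k = ∑ v_{k,i} θ_i` lie in `S_b`, satisfy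
`Y_k ^ (μ+1) ∈ (x - b0) S_b`, and the `v_k` are independent modulo `m_A`
(= the inputs `hyNil`, `hyInd` of the local discriminant lemma, in `F`-terms).
-/
import Fermat.Agent.S18.H49.Echelon
import Fermat.Agent.S18.H49.C1Glue
import Fermat.Agent.S18.H22.Subspaces

set_option autoImplicit false
set_option linter.style.haveILetI false

open AlgebraicCurve IntermediateField Fermat.Agent.S18.H74

noncomputable section

namespace Fermat.Agent.S18.H49

variable {K : Type*} [Field K] (A : ValuationSubring K)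

/-- An orthonormal family in `K^ι` is independent modulo `m_A`. -/
theorem nonunits_of_orthonormal (hA : A ≠ ⊤) {ι : Type*} [Fintype ι] {r : ℕ}
    (v : Fin r → ι → K)
    (horth : ∀ c : Fin r → K, (∀ i, (∑ k, c k • v k) i ∈ A) ↔ ∀ k, c k ∈ A)
    (c : Fin r → K) (hc : ∀ i, (∑ k, c k • v k) i ∈ A.nonunits) : ∀ k, c k ∈ A.nonunits := by
  classical
  -- a scalar `t ∉ A` with `t • w ∈ A^ι`
  obtain ⟨t, htA, ht⟩ : ∃ t : K, t ∉ A ∧ ∀ i, t * (∑ k, c k • v k) i ∈ A := by
    by_cases hw : ∀ i, (∑ k, c k • v k) i = 0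
    · obtain ⟨t, ht⟩ : ∃ t : K, t ∉ A := by
        by_contra hcon
        push Not at hcon
        exact hA (eq_top_iff.mpr fun t _ => hcon t)
      exact ⟨t, ht, fun i => by rw [hw i, mul_zero]; exact A.zero_mem⟩
    · push Not at hw
      obtain ⟨i₁, hi₁⟩ := hw
      have : Nonempty ι := ⟨i₁⟩
      obtain ⟨i₀, -, hmax⟩ := Finset.exists_max_image (Finset.univ : Finset ι)
        (fun i => A.valuation ((∑ k, c k • v k) i)) Finset.univ_nonempty
      have hπ0 : (∑ k, c k • v k) i₀ ≠ 0 := by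
        intro h0
        have h1 := hmax i₁ (Finset.mem_univ _)
        rw [h0, map_zero] at h1
        exact hi₁ ((map_eq_zero _).mp (le_antisymm h1 zero_le))
      refine ⟨((∑ k, c k • v k) i₀)⁻¹, ?_, fun i => ?_⟩
      · intro hmem
        have h1 := (A.valuation_le_one_iff _).mpr hmem
        have h2 := A.mem_nonunits_iff.mp (hc i₀)
        rw [map_inv₀] at h1
        have h3 : A.valuation ((∑ k, c k • v k) i₀) ≠ 0 := (map_ne_zero _).mpr hπ0
        have h4 : 1 ≤ A.valuation ((∑ k, c k • v k) i₀) := by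
          rwa [inv_le_one₀ (lt_of_le_of_ne zero_le (Ne.symm h3))] at h1
        exact absurd h2 (not_lt.mpr h4)
      · rw [← ValuationSubring.valuation_le_one_iff, map_mul, map_inv₀]
        have h3 : A.valuation ((∑ k, c k • v k) i₀) ≠ 0 := (map_ne_zero _).mpr hπ0
        rw [inv_mul_le_iff₀ (lt_of_le_of_ne zero_le (Ne.symm h3)), mul_one]
        exact hmax i (Finset.mem_univ _)
  have hall : ∀ k, t * c k ∈ A := by
    apply (horth fun k => t * c k).mp
    intro i
    have : (∑ k, (t * c k) • v k) i = t * (∑ k, c k • v k) i := by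
      simp only [Finset.sum_apply, Pi.smul_apply, smul_eq_mul, Finset.mul_sum, mul_assoc]
    rw [this]
    exact ht i
  intro k
  rw [A.mem_nonunits_iff]
  by_contra hge
  push Not at hge
  have h1 : 1 < A.valuation t := by
    rw [← not_le, ValuationSubring.valuation_le_one_iff]; exact htA
  have h2 := (A.valuation_le_one_iff _).mpr (hall k)
  rw [map_mul] at h2
  have h3 : A.valuation t * 1 ≤ A.valuation t * A.valuation (c k) := by gcongr
  rw [mul_one] at h3
  exact absurd (lt_of_lt_of_le h1 h3) (not_lt.mpr h2)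

variable {F : Type*} [Field F] [Algebra K F]

/-- Coefficient vectors whose combination of the `θ i` vanishes on `T`: codimension `≤ |T|`,
with an orthonormal basis. -/
theorem exists_ker_orthonormal {μ : ℕ} (θ : Fin μ → F) (T : Finset (Place K F))
    (hres : ∀ P ∈ T, ∀ i, ∃ a : K, θ i - algebraMap K F a ∈ P.toValuationSubring.nonunits) :
    ∃ (r : ℕ) (v : Fin r → Fin μ → K), μ ≤ r + T.card ∧
      (∀ c : Fin r → K, (∀ i, (∑ k, c k • v k) i ∈ A) ↔ ∀ k, c k ∈ A) ∧
      ∀ k, ∀ P ∈ T, (∑ i, v k i • θ i) ∈ P.toValuationSubring.nonunits := by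
  classical
  have hres' : ∀ (P : T) (i : Fin μ), ∃ a : K,
      θ i - algebraMap K F a ∈ (P : Place K F).toValuationSubring.nonunits :=
    fun P i => hres P P.2 i
  choose a ha using hres'
  let E : (Fin μ → K) →ₗ[K] (T → K) :=
    LinearMap.pi fun P => ∑ i, a P i • (LinearMap.proj i : (Fin μ → K) →ₗ[K] K)
  have hE : ∀ c P, E c P = ∑ i, a P i * c i := by
    intro c P
    simp [E, LinearMap.pi_apply, LinearMap.sum_apply]
  obtain ⟨d, b, hli, hspan, horth⟩ := exists_orthonormal_pi A (LinearMap.ker E)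
  have hd : Module.finrank K (LinearMap.ker E) = d := by
    have := finrank_span_eq_card hli
    rw [Fintype.card_fin] at this
    rw [← this, hspan]
  have hrank : μ ≤ d + T.card := by
    have h1 := LinearMap.finrank_range_add_finrank_ker E
    rw [Module.finrank_fintype_fun_eq_card, Fintype.card_fin, hd] at h1
    have h2 : Module.finrank K (LinearMap.range E) ≤ T.card := by
      have := Submodule.finrank_le (LinearMap.range E)
      rwa [Module.finrank_fintype_fun_eq_card, Fintype.card_coe] at this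
    omega
  refine ⟨d, b, hrank, horth, fun k P hP => ?_⟩
  have hbk : b k ∈ LinearMap.ker E := hspan ▸ Submodule.subset_span ⟨k, rfl⟩
  have hzero : ∑ i, a ⟨P, hP⟩ i * b k i = 0 := by
    have := congrFun (LinearMap.mem_ker.mp hbk) ⟨P, hP⟩
    rw [hE] at this
    exact this
  have hsum : ∑ i, b k i • θ i = ∑ i, algebraMap K F (b k i) * (θ i - algebraMap K F (a ⟨P, hP⟩ i)) := by
    have h2 : ∑ i, algebraMap K F (b k i) * algebraMap K F (a ⟨P, hP⟩ i) = 0 := by
      have := congrArg (algebraMap K F) hzero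
      rw [map_sum, map_zero] at this
      rw [← this]
      refine Finset.sum_congr rfl fun i _ => ?_
      rw [map_mul, mul_comm]
    calc ∑ i, b k i • θ i
        = ∑ i, algebraMap K F (b k i) * (θ i - algebraMap K F (a ⟨P, hP⟩ i))
            + ∑ i, algebraMap K F (b k i) * algebraMap K F (a ⟨P, hP⟩ i) := by
          rw [← Finset.sum_add_distrib]
          refine Finset.sum_congr rfl fun i _ => ?_
          rw [Algebra.smul_def]; ring
      _ = _ := by rw [h2, add_zero]
  rw [hsum, ValuationSubring.mem_nonunits_iff]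
  refine Valuation.map_sum_lt _ one_ne_zero fun i _ => ?_
  rw [map_mul]
  have h1 : P.toValuationSubring.valuation (algebraMap K F (b k i)) ≤ 1 :=
    (ValuationSubring.valuation_le_one_iff _ _).mpr (P.algebraMap_mem' _)
  have h2 := P.toValuationSubring.mem_nonunits_iff.mp (ha ⟨P, hP⟩ i)
  calc _ ≤ 1 * P.toValuationSubring.valuation (θ i - algebraMap K F (a ⟨P, hP⟩ i)) := by gcongr
    _ < 1 := by rw [one_mul]; exact h2

variable {A} {O : ValuationSubring F} {x : F}

/-- **D5, explicit form.**  Let `θ_i ∈ S_b`, `b0` a point of the disc, `T` the set of places over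
`b0`, each of ramification index `≤ μ`.  Then there are `r ≥ μ - #T` vectors `v_k ∈ A^μ`,
independent modulo `m_A`, such that `Y_k = ∑ v_{k,i} θ_i ∈ S_b` satisfies
`Y_k^(μ+1) ∈ (x - b0) S_b`. -/
theorem exists_nilpotents_of [IsAlgClosed K] (hx : Transcendental K x)
    [FiniteDimensional K⟮x⟯ F] (hA : A ≠ ⊤) (hmem : ∀ a : K, algebraMap K F a ∈ O ↔ a ∈ A)
    (hlin : ∀ c ∈ A, (x - algebraMap K F c) ∈ O ∧ (x - algebraMap K F c)⁻¹ ∈ O)
    (b : K) (hb : b ∈ A) {μ : ℕ} (θ : Fin μ → F) (hθ : ∀ i, θ i ∈ discRing A O x b)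
    (b0 : K) (hb0 : b0 - b ∈ A.nonunits) (T : Finset (Place K F))
    (hT : ∀ P, P ∈ T ↔ 0 < P.ord (x - algebraMap K F b0))
    (hμ : ∀ P ∈ T, P.ord (x - algebraMap K F b0) ≤ μ) :
    ∃ (r : ℕ) (v : Fin r → Fin μ → K), μ ≤ r + T.card ∧ (∀ k i, v k i ∈ A) ∧
      (∀ c : Fin r → K, (∀ i, (∑ k, c k • v k) i ∈ A.nonunits) → ∀ k, c k ∈ A.nonunits) ∧
      ∀ k, ∃ w ∈ discRing A O x b,
        (∑ i, v k i • θ i) ^ (μ + 1) = (x - algebraMap K F b0) * w := by
  classical
  have hb0A : b0 ∈ A := by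
    have := A.add_mem _ _ (A.nonunits_le hb0) hb
    simpa using this
  have ht0 : x - algebraMap K F b0 ≠ 0 := fun h =>
    hx ⟨Polynomial.X - Polynomial.C b0, Polynomial.X_sub_C_ne_zero b0, by simpa using h⟩
  have hdiscT : ∀ P ∈ T, InDisc A x b P := fun P hP => ⟨b0, hb0, (hT P).mp hP⟩
  -- residues of the `θ i` at the places of `T`
  have hres : ∀ P ∈ T, ∀ i, ∃ a : K, θ i - algebraMap K F a ∈ P.toValuationSubring.nonunits := by
    intro P hP i
    have hmemP : θ i ∈ P.toValuationSubring :=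
      ((mem_discRing_iff b (θ i)).mp (hθ i)).2 P (hdiscT P hP)
    obtain ⟨a, ha | ha⟩ := Fermat.Agent.S24.exists_sub_algebraMap_ord_pos x P hmemP
    · exact ⟨a, by rw [ha, sub_self]; exact P.toValuationSubring.nonunits.zero_mem⟩
    · exact ⟨a, (Fermat.Agent.S24.H94.ord_pos_iff_mem_nonunits P
        (Fermat.Agent.S24.H94.ne_zero_of_ord_pos P ha)).mp ha⟩
  obtain ⟨r, v, hrank, horth, hvan⟩ := exists_ker_orthonormal A θ T hres
  have hvA : ∀ k i, v k i ∈ A := by
    intro k i
    have h1 := (horth (Pi.single k 1)).mpr (fun k' => by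
      by_cases hk : k' = k
      · subst hk; rw [Pi.single_eq_same]; exact A.one_mem
      · rw [Pi.single_eq_of_ne hk]; exact A.zero_mem) i
    have h2 : (∑ k', (Pi.single k (1 : K) : Fin r → K) k' • v k') = v k := by
      rw [Finset.sum_eq_single k]
      · rw [Pi.single_eq_same, one_smul]
      · intro k' _ hk
        rw [Pi.single_eq_of_ne hk, zero_smul]
      · intro h
        exact absurd (Finset.mem_univ k) h
    rwa [h2] at h1
  refine ⟨r, v, hrank, hvA, nonunits_of_orthonormal A hA v horth, fun k => ?_⟩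
  have hY : (∑ i, v k i • θ i) ∈ discRing A O x b := by
    refine sum_mem_discRing _ _ fun i _ => ?_
    rw [Algebra.smul_def]
    exact mul_mem_discRing (algebraMap_mem_discRing hmem b (hvA k i)) (hθ i)
  have hY' := (mem_discRing_iff b _).mp hY
  refine ⟨(∑ i, v k i • θ i) ^ (μ + 1) * (x - algebraMap K F b0)⁻¹, ⟨?_, fun P hP => ?_⟩, ?_⟩
  · exact O.mul_mem _ _ (pow_mem hY'.1 _) (hlin b0 hb0A).2
  · by_cases hY0 : (∑ i, v k i • θ i) = 0
    · rw [hY0, zero_pow (Nat.succ_ne_zero μ), zero_mul, Place.ord_zero]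
    · have hYord : 0 ≤ P.ord (∑ i, v k i • θ i) := (ord_nonneg_iff_mem P _).mpr (hY'.2 P hP)
      rw [P.ord_mul (pow_ne_zero _ hY0) (inv_ne_zero ht0), Fermat.Agent.S24.ord_pow, P.ord_inv]
      by_cases hPT : P ∈ T
      · have h1 : 0 < P.ord (∑ i, v k i • θ i) :=
          (Fermat.Agent.S24.H94.ord_pos_iff_mem_nonunits P hY0).mpr (hvan k P hPT)
        have h2 := hμ P hPT
        have h3 : ((μ + 1 : ℕ) : ℤ) * 1 ≤ ((μ + 1 : ℕ) : ℤ) * P.ord (∑ i, v k i • θ i) :=
          mul_le_mul_of_nonneg_left h1 (by positivity)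
        push_cast at h3 ⊢
        omega
      · have h2 : ¬ 0 < P.ord (x - algebraMap K F b0) := fun h => hPT ((hT P).mpr h)
        have h3 : 0 ≤ ((μ + 1 : ℕ) : ℤ) * P.ord (∑ i, v k i • θ i) :=
          mul_nonneg (by positivity) hYord
        omega
  · rw [mul_comm _ (x - algebraMap K F b0)⁻¹, ← mul_assoc, mul_inv_cancel₀ ht0, one_mul]

/-- **D5** in the shape of the C1 sub-skeleton (`μ = [F : K(x)]`, the ramification bound comes
from the landed FIB2 `∑_{P over b0} e_P = μ`). -/
theorem exists_nilpotents [IsAlgClosed K] [CharZero K] (hA : A ≠ ⊤) (hS : Setup K A F O x)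
    (b : K) (hb : b ∈ A) (θ : Fin (Module.finrank K⟮x⟯ F) → F)
    (hθ : ∀ i, θ i ∈ discRing A O x b) (b0 : K) (hb0 : b0 - b ∈ A.nonunits)
    (T : Finset (Place K F)) (hT : ∀ P, P ∈ T ↔ 0 < P.ord (x - algebraMap K F b0)) :
    ∃ (r : ℕ) (v : Fin r → Fin (Module.finrank K⟮x⟯ F) → K),
      Module.finrank K⟮x⟯ F ≤ r + T.card ∧ (∀ k i, v k i ∈ A) ∧
      (∀ c : Fin r → K, (∀ i, (∑ k, c k • v k) i ∈ A.nonunits) → ∀ k, c k ∈ A.nonunits) ∧
      ∀ k, ∃ w ∈ discRing A O x b,
        (∑ i, v k i • θ i) ^ (Module.finrank K⟮x⟯ F + 1) = (x - algebraMap K F b0) * w := by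
  classical
  haveI := hS.finite
  have hx : Transcendental K x :=
    Fermat.Agent.S18.H22.transcendental_of_gauss hA hS.mem_iff hS.gauss
  have hlin : ∀ c ∈ A, (x - algebraMap K F c) ∈ O ∧ (x - algebraMap K F c)⁻¹ ∈ O :=
    fun c hc => gauss_lin hS.gauss hc
  have hTeq : T = (Fermat.Agent.S18.H42.finite_over x hx b0).toFinset := by
    ext P
    rw [hT, Set.Finite.mem_toFinset]
    rfl
  have hsum := Fermat.Agent.S18.H42.sum_ord_over_toFinset x hx b0
  rw [← hTeq] at hsum
  have hμ : ∀ P ∈ T, P.ord (x - algebraMap K F b0) ≤ (Module.finrank K⟮x⟯ F : ℤ) := by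
    intro P hP
    rw [← hsum]
    exact Finset.single_le_sum (fun P' hP' => le_of_lt ((hT P').mp hP')) hP
  exact exists_nilpotents_of hx hA hS.mem_iff hlin b hb θ hθ b0 hb0 T hT hμ

end Fermat.Agent.S18.H49
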