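/-
S18 / Program J / leaf C1 = `exists_clear` (Key Lemma + tubes): the ASSEMBLY of the C1 sub-skeleton
(helper49), complete proofs.  `exists_clear_of_leaves` is `H74.exists_clear` VERBATIM from the five
remaining leaves, stated as the `Prop`s

* `TameLocal K F x`      D1(e): tame discriminant at a point, Place language
* `KeyIc A O x`          Key Lemma, output (IC)   (residue side)
* `KeyGen A O x`         Key Lemma, output (GEN)  (residue side)
* `TubeOfGen A O x`      D8, characteristic-zero half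
* `ClearOfHyps A O x`    D9, clearing

Everything else is consumed from main: D3 (`H27.exists_discBasis`), D5 (`H49.exists_nilpotents`),
D4 (`H49.disc_count_of`), C1-ONE (`H18.sum_ord_eq_zero_of_oneUnit`), FIB3
(`H42.finite_ord_ne_zero`), (EV), (MO), branch centre (`H49.C1Glue`).
-/
import Fermat.Agent.S18.H49.Nilpotents
import Fermat.Agent.S18.H27.DiscBasis
import Fermat.Agent.S18.H18.OneUnitLeaf
import Fermat.Agent.S18.H42.FiniteOrd

set_option autoImplicit false
set_option linter.style.haveILetI false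

open AlgebraicCurve IntermediateField Fermat.Agent.S18.H74

noncomputable section

namespace Fermat.Agent.S18.H49

variable {K : Type*} [Field K] {A : ValuationSubring K} {F : Type*} [Field F] [Algebra K F]
  {O : ValuationSubring F} {x : F}

/-! ### The Gram determinant of an orthonormal basis is Gauss-integral -/

/-- The trace of a Gauss-integral function is Gauss-integral (`O = ⊕ (O ∩ K(x)) θ_i`). -/
theorem trace_mem_of_on [FiniteDimensional K⟮x⟯ F] (θ : Fin (Module.finrank K⟮x⟯ F) → F)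
    (hli : LinearIndependent K⟮x⟯ θ)
    (hon : ∀ r : Fin (Module.finrank K⟮x⟯ F) → K⟮x⟯,
      (∑ i, (r i : F) * θ i) ∈ O ↔ ∀ i, (r i : F) ∈ O)
    (f : F) (hf : f ∈ O) : ((Algebra.trace K⟮x⟯ F f : K⟮x⟯) : F) ∈ O := by
  classical
  have hne : Nonempty (Fin (Module.finrank K⟮x⟯ F)) := Fin.pos_iff_nonempty.mp Module.finrank_pos
  have hBθ : ∀ i, basisOfLinearIndependentOfCardEqFinrank hli (by simp) i = θ i := fun i => by
    rw [coe_basisOfLinearIndependentOfCardEqFinrank]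
  have hθO : ∀ i, θ i ∈ O := fun i => Fermat.Agent.S18.H27.IsONx.mem hon i
  rw [Algebra.trace_eq_matrix_trace (basisOfLinearIndependentOfCardEqFinrank hli (by simp)) f,
    Matrix.trace]
  have hcoe : ((∑ i, Matrix.diag (Algebra.leftMulMatrix
      (basisOfLinearIndependentOfCardEqFinrank hli (by simp)) f) i : K⟮x⟯) : F)
      = ∑ i, ((Matrix.diag (Algebra.leftMulMatrix
        (basisOfLinearIndependentOfCardEqFinrank hli (by simp)) f) i : K⟮x⟯) : F) := by
    push_cast
    rfl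
  rw [hcoe]
  refine sum_mem fun i _ => ?_
  rw [Matrix.diag_apply, Algebra.leftMulMatrix_eq_repr_mul]
  refine (hon fun k => (basisOfLinearIndependentOfCardEqFinrank hli (by simp)).repr
    (f * basisOfLinearIndependentOfCardEqFinrank hli (by simp) i) k).mp ?_ i
  have h2 : ∑ k, (((basisOfLinearIndependentOfCardEqFinrank hli (by simp)).repr
      (f * basisOfLinearIndependentOfCardEqFinrank hli (by simp) i) k : K⟮x⟯) : F) * θ k
      = f * θ i := by
    conv_rhs => rw [← hBθ i, ← (basisOfLinearIndependentOfCardEqFinrank hli (by simp)).sum_repr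
      (f * basisOfLinearIndependentOfCardEqFinrank hli (by simp) i)]
    refine Finset.sum_congr rfl fun k _ => ?_
    rw [IntermediateField.smul_def, smul_eq_mul, hBθ k]
  rw [h2]
  exact O.mul_mem _ _ hf (hθO i)

/-- The Gram determinant of an orthonormal `K(x)`-basis is Gauss-integral. -/
theorem gramDet_mem_of_on [FiniteDimensional K⟮x⟯ F] (θ : Fin (Module.finrank K⟮x⟯ F) → F)
    (hli : LinearIndependent K⟮x⟯ θ)
    (hon : ∀ r : Fin (Module.finrank K⟮x⟯ F) → K⟮x⟯,
      (∑ i, (r i : F) * θ i) ∈ O ↔ ∀ i, (r i : F) ∈ O) :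
    ((gramDet K F x θ : K⟮x⟯) : F) ∈ O := by
  classical
  have hθO : ∀ i, θ i ∈ O := fun i => Fermat.Agent.S18.H27.IsONx.mem hon i
  have hS : ∀ r : K⟮x⟯, r ∈ O.toSubring.comap (algebraMap K⟮x⟯ F) ↔ (r : F) ∈ O :=
    fun r => Iff.rfl
  rw [← hS]
  unfold gramDet
  rw [Matrix.det_apply']
  refine Subring.sum_mem _ fun σ _ => Subring.mul_mem _ (intCast_mem _ _)
    (Subring.prod_mem _ fun i _ => ?_)
  rw [Matrix.of_apply, hS]
  exact trace_mem_of_on θ hli hon _ (O.mul_mem _ _ (hθO _) (hθO _))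

/-! ### D3 in the shape of the sub-skeleton -/

/-- **D3** (adapter of the landed `H27.exists_discBasis`): a minimal tuple with unit Gram
determinant. -/
theorem exists_minTuple [CharZero K] (hA : A ≠ ⊤) (hS : Setup K A F O x) (b : K) (hb : b ∈ A) :
    ∃ θ : Fin (Module.finrank K⟮x⟯ F) → F, IsMinTuple A O x b θ ∧
      ((gramDet K F x θ : K⟮x⟯) : F) ∈ O ∧ ((gramDet K F x θ : K⟮x⟯) : F)⁻¹ ∈ O := by
  haveI := hS.finite
  obtain ⟨θ, hon, hgr, hmem, hcoord, hbasis⟩ := Fermat.Agent.S18.H27.exists_discBasis hA hS hb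
  have hx := (Fermat.Agent.S18.H27.gaussHyp_of_setup hA hS).transcendental
  refine ⟨θ, ⟨hmem, hon, fun c hc r hf i P hP => ?_, hcoord⟩,
    gramDet_mem_of_on θ (linearIndependent_of_on hA hS.mem_iff θ hon) hon, hgr⟩
  have h1 := hbasis c hc r (Fermat.Agent.S18.H27.mem_overRing_iff_ord.mpr hf) i
  exact Fermat.Agent.S18.H27.mem_overRing_iff_ord.mp (h1.mem_overRing hx) P hP

/-! ### The remaining leaves, as `Prop`s -/

variable (K F x) in
/-- **Leaf D1(e)** (tame discriminant at a point `c`, Place language): for a local integral basis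
`θ` at `c`, `gramDet θ = (x - c)^n ε` with `ε` a unit at `c` and `n + #{P over c} ≤ [F : K(x)]`. -/
def TameLocal : Prop :=
  ∀ (θ : Fin (Module.finrank K⟮x⟯ F) → F) (c : K),
    (∀ i, ∀ P : Place K F, 0 < P.ord (x - algebraMap K F c) → 0 ≤ P.ord (θ i)) →
    (∀ r : Fin (Module.finrank K⟮x⟯ F) → K⟮x⟯,
      (∀ P : Place K F, 0 < P.ord (x - algebraMap K F c) → 0 ≤ P.ord (∑ i, (r i : F) * θ i)) →
      ∀ i, ∀ P : Place K F, 0 < P.ord (x - algebraMap K F c) → 0 ≤ P.ord (r i : F)) →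
    ∀ T : Finset (Place K F), (∀ P, P ∈ T ↔ 0 < P.ord (x - algebraMap K F c)) →
    ∃ (n : ℕ) (ε : K⟮x⟯), n + T.card ≤ Module.finrank K⟮x⟯ F ∧
      ((gramDet K F x θ : K⟮x⟯) : F) = (x - algebraMap K F c) ^ n * (ε : F) ∧
      ∀ P : Place K F, 0 < P.ord (x - algebraMap K F c) → P.ord (ε : F) = 0

variable (A O x) in
/-- **Leaf: Key Lemma, output (IC)**: `red(S_b)` is integrally closed in the residue field of `O`
(for the equations `T^m = w̄`). -/
def KeyIc : Prop :=
  ∀ b : K, b ∈ A → KeyHyp A O x b → ∀ m : ℕ, m ≠ 0 → ∀ y : F, y ∈ O →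
    ∀ w : F, w ∈ discRing A O x b → y ^ m - w ∈ O.nonunits →
    ∃ s ∈ discRing A O x b, y - s ∈ O.nonunits

variable (A O x) in
/-- **Leaf: Key Lemma, output (GEN)**: for every place `P` of the disc there is a Gauss unit
`τ ∈ S_b` vanishing at `P` whose norm to `K(x)` is `(x - c0) ε`, `c0` in the disc, `ε ∈ R_b^×`. -/
def KeyGen : Prop :=
  ∀ b : K, b ∈ A → KeyHyp A O x b → ∀ P : Place K F, InDisc A x b P →
    ∃ τ ∈ discRing A O x b, τ⁻¹ ∈ O ∧ 0 < P.ord τ ∧ ∃ (c0 : K) (ε : K⟮x⟯),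
      c0 - b ∈ A.nonunits ∧
      ((Algebra.norm K⟮x⟯ τ : K⟮x⟯) : F) = (x - algebraMap K F c0) * (ε : F) ∧
      (ε : F) ∈ discRing A O x b ∧ (ε : F)⁻¹ ∈ discRing A O x b

variable (A O x) in
/-- **Leaf D8, characteristic-zero half**: such a `τ` has exactly one zero on the disc, simple,
at `P`. -/
def TubeOfGen : Prop :=
  ∀ (b : K) (P : Place K F), InDisc A x b P → ∀ τ : F, τ ∈ discRing A O x b → τ⁻¹ ∈ O →
    0 < P.ord τ → ∀ (c0 : K) (ε : K⟮x⟯), c0 - b ∈ A.nonunits →
    ((Algebra.norm K⟮x⟯ τ : K⟮x⟯) : F) = (x - algebraMap K F c0) * (ε : F) →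
    (ε : F) ∈ discRing A O x b → (ε : F)⁻¹ ∈ discRing A O x b →
    P.ord τ = 1 ∧ ∀ P' : Place K F, InDisc A x b P' → P' ≠ P → P'.ord τ = 0

variable (A O x) in
/-- **Leaf D9, clearing**, explicit-hypothesis form of report #1226. -/
def ClearOfHyps : Prop :=
  ∀ (b : K) (m : ℕ), m ≠ 0 → ∀ u : F, u - 1 ∈ O.nonunits →
    (∀ P : Place K F, InDisc A x b P → (m : ℤ) ∣ P.ord u) →
    {P : Place K F | InDisc A x b P ∧ P.ord u ≠ 0}.Finite →
    (∀ P : Place K F, InDisc A x b P → ∃ τ ∈ discRing A O x b, τ⁻¹ ∈ O ∧ P.ord τ = 1 ∧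
      ∀ P' : Place K F, InDisc A x b P' → P' ≠ P → P'.ord τ = 0) →
    (∀ y ∈ O, (∃ w ∈ discRing A O x b, y ^ m - w ∈ O.nonunits) →
      ∃ s ∈ discRing A O x b, y - s ∈ O.nonunits) →
    (∀ s ∈ discRing A O x b, ∀ P : Place K F, InDisc A x b P → ∀ c : K,
      0 < P.ord (s - algebraMap K F c) → c ∈ A) →
    (∀ e ∈ discRing A O x b, e ∈ O.nonunits →
      ∃ a ∈ A.nonunits, ∃ s ∈ discRing A O x b, e = algebraMap K F a * s) →
    ∃ g : F, g - 1 ∈ O.nonunits ∧
      ∀ P : Place K F, InDisc A x b P → (m : ℤ) * P.ord g = P.ord u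

/-! ### Assembly -/

/-- **(EV)** for a `Setup` (from the landed C1-ONE). -/
theorem ev_disc [IsAlgClosed K] [CharZero K] (hA : A ≠ ⊤) (hS : Setup K A F O x)
    (b : K) (hb : b ∈ A) (s : F) (hs : s ∈ discRing A O x b) (P : Place K F)
    (hP : InDisc A x b P) (c : K) (hc : 0 < P.ord (s - algebraMap K F c)) : c ∈ A :=
  ev_of_oneUnit hS.mem_iff b
    (fun y hy => Fermat.Agent.S18.H18.sum_ord_eq_zero_of_oneUnit hA hS b hb y hy) s hs P hP c hc

/-- The F-level input of the Key Lemma, from the tame bound. -/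
theorem keyHyp_of_tame [IsAlgClosed K] [CharZero K] (hA : A ≠ ⊤) (hS : Setup K A F O x)
    (htame : TameLocal K F x) (b : K) (hb : b ∈ A) : KeyHyp A O x b := by
  haveI := hS.finite
  have hx : Transcendental K x :=
    Fermat.Agent.S18.H22.transcendental_of_gauss hA hS.mem_iff hS.gauss
  obtain ⟨θ, hθ, hgr1, hgr2⟩ := exists_minTuple hA hS b hb
  obtain ⟨b0, -, hb0, hbr⟩ := exists_branch_centre hS b hb
  have hT : ∀ P, P ∈ (Fermat.Agent.S18.H42.finite_over x hx b0).toFinset ↔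
      0 < P.ord (x - algebraMap K F b0) := fun P => by
    rw [Set.Finite.mem_toFinset]; rfl
  obtain ⟨n, ε, hn, hε, hε1, hε2⟩ := disc_count_of hx hA hS.mem_iff
    (fun c hc => gauss_lin hS.gauss hc) b hb θ hθ ⟨hgr1, hgr2⟩
    (fun c hc T hT' => htame θ c
      (fun i P hP => ((hθ.mem i).2 P ⟨c, hc, hP⟩)) (hθ.loc c hc) T hT')
    b0 hb0 hbr _ hT
  obtain ⟨r, v, hr, hvA, hvind, hnil⟩ := exists_nilpotents hA hS b hb θ hθ.mem b0 hb0 _ hT
  exact ⟨θ, b0, n, ε, r, v, hθ, hb0, hε, hε1, hε2, by omega, hvA, hvind, hnil⟩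

/-- **C1 = `H74.exists_clear`** (conclusion VERBATIM), from the five remaining leaves. -/
theorem exists_clear_of_leaves [IsAlgClosed K] [CharZero K] (hA : A ≠ ⊤)
    (hS : Setup K A F O x) (htame : TameLocal K F x) (hic : KeyIc A O x)
    (hgen : KeyGen A O x) (htube : TubeOfGen A O x) (hclear : ClearOfHyps A O x)
    (b : K) (hb : b ∈ A) (m : ℕ) (hm : m ≠ 0) (u : F) (hu : u - 1 ∈ O.nonunits)
    (hord : ∀ P : Place K F, InDisc A x b P → (m : ℤ) ∣ P.ord u) :
    ∃ g : F, g - 1 ∈ O.nonunits ∧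
      ∀ P : Place K F, InDisc A x b P → (m : ℤ) * P.ord g = P.ord u := by
  haveI := hS.finite
  have hx : Transcendental K x :=
    Fermat.Agent.S18.H22.transcendental_of_gauss hA hS.mem_iff hS.gauss
  have hu0 : u ≠ 0 := by
    rintro rfl
    have h1 : (1 : F) ∈ O.nonunits := by
      have := O.nonunits.neg_mem hu
      simpa using this
    rw [ValuationSubring.mem_nonunits_iff, map_one] at h1
    exact lt_irrefl _ h1
  have hkey := keyHyp_of_tame hA hS htame b hb
  refine hclear b m hm u hu hord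
    ((Fermat.Agent.S18.H42.finite_ord_ne_zero x hx hu0).subset fun P hP => hP.2)
    (fun P hP => ?_)
    (fun y hy h => ?_)
    (fun s hs P hP c hc => ev_disc hA hS b hb s hs P hP c hc)
    (fun e he heO => mo_disc hS b e he heO)
  · obtain ⟨τ, hτ, hτO, hτP, c0, ε, hc0, hN, hε1, hε2⟩ := hgen b hb hkey P hP
    obtain ⟨h1, h2⟩ := htube b P hP τ hτ hτO hτP c0 ε hc0 hN hε1 hε2
    exact ⟨τ, hτ, hτO, h1, h2⟩
  · obtain ⟨w, hw, hyw⟩ := h
    exact hic b hb hkey m hm y hy w hw hyw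

end Fermat.Agent.S18.H49
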