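/-
S18 / Program J / leaf C1 (helper49): the characteristic-zero half of D8 (tubes).

`tubeOfGen : TubeOfGen A O x` : a Gauss unit `τ ∈ S_b` vanishing at a place `P` of the disc whose
norm to `K(x)` is `(x - c0) ε` (`c0` in the disc, `ε ∈ R_b^×`) has exactly one zero on the disc,
simple, at `P`.  (Norm-order formula `H42.norm_order` at every point of the disc.)

`exists_clear_of_three` : `H74.exists_clear` from the three remaining leaves
`KeyIc`, `KeyGen`, `ClearOfHyps` (`TameLocal` is the landed `H7.tame_local'`).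
-/
import Fermat.Agent.S18.H49.C1Asm
import Fermat.Agent.S18.H42.NormOrder
import Fermat.Agent.S18.H7.TameLocal

set_option autoImplicit false
set_option linter.style.haveILetI false

open AlgebraicCurve IntermediateField Fermat.Agent.S18.H74

noncomputable section

namespace Fermat.Agent.S18.H49

variable {K : Type*} [Field K] {A : ValuationSubring K} {F : Type*} [Field F] [Algebra K F]
  {O : ValuationSubring F} {x : F}

/-- **D8, characteristic-zero half.** -/
theorem tubeOfGen [IsAlgClosed K] [CharZero K] (hx : Transcendental K x)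
    [FiniteDimensional K⟮x⟯ F] : TubeOfGen A O x := by
  classical
  intro b P hP τ hτ hτO hτP c0 ε hc0 hN hε1 hε2
  have hτ0 : τ ≠ 0 := Fermat.Agent.S24.H94.ne_zero_of_ord_pos P hτP
  have hN0 : ((Algebra.norm K⟮x⟯ τ : K⟮x⟯) : F) ≠ 0 := by
    have h1 : Algebra.norm K⟮x⟯ τ ≠ 0 := Algebra.norm_ne_zero_iff.mpr hτ0
    simpa using h1
  have hε0 : (ε : F) ≠ 0 := by
    intro h
    rw [h, mul_zero] at hN
    exact hN0 hN
  obtain ⟨p1, q1, hpq⟩ := (mem_adjoin_simple_iff K _).mp ε.2
  have hq1 : q1 ≠ 0 := by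
    rintro rfl
    rw [map_zero, div_zero] at hpq
    exact hε0 hpq
  have hq1x : Polynomial.aeval x q1 ≠ 0 := fun h => by
    rw [h, div_zero] at hpq
    exact hε0 hpq
  have hp1 : p1 ≠ 0 := by
    rintro rfl
    rw [map_zero, zero_div] at hpq
    exact hε0 hpq
  have hrel : ((Algebra.norm K⟮x⟯ τ : K⟮x⟯) : F) * Polynomial.aeval x q1
      = Polynomial.aeval x ((Polynomial.X - Polynomial.C c0) * p1) := by
    rw [hN, hpq, map_mul, map_sub, Polynomial.aeval_X, Polynomial.aeval_C]
    field_simp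
  have hmemT : ∀ (c : K) (P' : Place K F),
      P' ∈ (Fermat.Agent.S18.H42.finite_over x hx c).toFinset ↔
        0 < P'.ord (x - algebraMap K F c) := fun c P' => by
    rw [Set.Finite.mem_toFinset]; rfl
  -- the zero count of `τ` over a point of the disc
  have hcount : ∀ c : K, c - b ∈ A.nonunits →
      ∑ P' ∈ (Fermat.Agent.S18.H42.finite_over x hx c).toFinset, P'.ord τ
        = if c = c0 then 1 else 0 := by
    intro c hc
    have h1 := Fermat.Agent.S18.H42.norm_order x hx hτ0 _ q1 hq1 hrel c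
    rw [finsum_mem_eq_finite_toFinset_sum _ (Fermat.Agent.S18.H42.finite_over x hx c)] at h1
    rw [← h1]
    obtain ⟨P', hP'⟩ := Fermat.Agent.S18.H42.exists_over x hx c
    have hεord : P'.ord (ε : F) = 0 := by
      have h2 := hε1.2 P' ⟨c, hc, hP'⟩
      have h3 := hε2.2 P' ⟨c, hc, hP'⟩
      rw [P'.ord_inv] at h3
      omega
    have ha := Fermat.Agent.S18.H42.ord_aeval P' hP' hp1
    have hb' := Fermat.Agent.S18.H42.ord_aeval P' hP' hq1
    have h4 : P'.ord (ε : F)
        = P'.ord (Polynomial.aeval x p1) - P'.ord (Polynomial.aeval x q1) := by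
      rw [hpq]
      exact Fermat.Agent.S24.ord_div P' ha.1 hb'.1
    have h5 : (p1.rootMultiplicity c : ℤ) = q1.rootMultiplicity c := by
      rw [h4, ha.2, hb'.2, ← sub_mul] at hεord
      rcases mul_eq_zero.mp hεord with h | h
      · omega
      · omega
    rw [Polynomial.rootMultiplicity_mul (mul_ne_zero (Polynomial.X_sub_C_ne_zero c0) hp1),
      Polynomial.rootMultiplicity_X_sub_C]
    push_cast
    rw [h5]
    split_ifs <;> ring
  have hnn : ∀ c : K, c - b ∈ A.nonunits →
      ∀ P' ∈ (Fermat.Agent.S18.H42.finite_over x hx c).toFinset, 0 ≤ P'.ord τ :=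
    fun c hc P' hP' => hτ.2 P' ⟨c, hc, (hmemT c P').mp hP'⟩
  obtain ⟨c1, hc1, hP1⟩ := hP
  have hPmem : P ∈ (Fermat.Agent.S18.H42.finite_over x hx c1).toFinset := (hmemT c1 P).mpr hP1
  have hsum := hcount c1 hc1
  have hle := Finset.single_le_sum (hnn c1 hc1) hPmem
  have hc10 : c1 = c0 := by
    by_contra hne
    rw [if_neg hne] at hsum
    omega
  rw [if_pos hc10] at hsum
  have hP1' : P.ord τ = 1 := by omega
  refine ⟨hP1', fun P' hP' hne => ?_⟩
  obtain ⟨c', hc', hP'c⟩ := hP'
  have hP'mem : P' ∈ (Fermat.Agent.S18.H42.finite_over x hx c').toFinset := (hmemT c' P').mpr hP'c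
  by_cases hcc : c' = c1
  · subst hcc
    have h1 := Finset.add_sum_erase _ (fun Q : Place K F => Q.ord τ) hPmem
    rw [hsum, hP1'] at h1
    have h2 : ∑ Q ∈ (Fermat.Agent.S18.H42.finite_over x hx c').toFinset.erase P, Q.ord τ = 0 := by
      omega
    have h3 := (Finset.sum_eq_zero_iff_of_nonneg (fun Q hQ =>
      hnn c' hc' Q (Finset.mem_of_mem_erase hQ))).mp h2
    exact h3 P' (Finset.mem_erase.mpr ⟨hne, hP'mem⟩)
  · have h1 := hcount c' hc'
    rw [if_neg (fun h => hcc (h.trans hc10.symm))] at h1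
    exact (Finset.sum_eq_zero_iff_of_nonneg (hnn c' hc')).mp h1 P' hP'mem

/-- **Leaf D1(e)** is the landed `H7.tame_local'`. -/
theorem tameLocal [IsAlgClosed K] [CharZero K] [FiniteDimensional K⟮x⟯ F] : TameLocal K F x :=
  fun θ c hreg hloc T hT => Fermat.Agent.S18.H7.tame_local' θ c hreg hloc T hT

/-- **C1 = `H74.exists_clear`** (conclusion VERBATIM), from the three remaining leaves. -/
theorem exists_clear_of_three [IsAlgClosed K] [CharZero K] (hA : A ≠ ⊤)
    (hS : Setup K A F O x) (hic : KeyIc A O x) (hgen : KeyGen A O x)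
    (hclear : ClearOfHyps A O x)
    (b : K) (hb : b ∈ A) (m : ℕ) (hm : m ≠ 0) (u : F) (hu : u - 1 ∈ O.nonunits)
    (hord : ∀ P : Place K F, InDisc A x b P → (m : ℤ) ∣ P.ord u) :
    ∃ g : F, g - 1 ∈ O.nonunits ∧
      ∀ P : Place K F, InDisc A x b P → (m : ℤ) * P.ord g = P.ord u := by
  haveI := hS.finite
  have hx : Transcendental K x :=
    Fermat.Agent.S18.H22.transcendental_of_gauss hA hS.mem_iff hS.gauss
  exact exists_clear_of_leaves hA hS tameLocal hic hgen (tubeOfGen hx) hclear b hb m hm u hu hord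

end Fermat.Agent.S18.H49
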