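/-
S18 / Program J / leaf C1 (helper49, C1 deputy): `exists_clear` — the statement of the skeleton
leaf `H74.exists_clear` (Core.lean), VERBATIM and unconditional.

Clearing lemma = Key Lemma + tubes: a one-unit whose divisor is divisible by `m` on a residue disc
is, on that disc, the divisor of `g^m` for a ONE-UNIT `g`.

Assembly `H49.exists_clear_of_three` with the three landed leaves
* `KeyIc`       := `H5.key_ic`                                   (helper5)
* `KeyGen`      := `H69.key_gen_of_closed` + `H5.key_closed`     (helper69, helper4, helper66, helper5)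
* `ClearOfHyps` := `H20.clear_of_hyps`                           (helper20; also helper9's H9C)
-/
import Fermat.Agent.S18.H49.C1Tube
import Fermat.Agent.S18.H5.Key
import Fermat.Agent.S18.H69.KeyGen
import Fermat.Agent.S18.H20.Clear

set_option autoImplicit false

open AlgebraicCurve IntermediateField Fermat.Agent.S18.H74

noncomputable section

namespace Fermat.Agent.S18.H49

variable {K : Type*} [Field K] {A : ValuationSubring K} {F : Type*} [Field F] [Algebra K F]
  {O : ValuationSubring F} {x : F}

/-- Leaf `KeyIc` (landed `H5.key_ic`). -/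
theorem keyIc [IsAlgClosed K] [CharZero K] (hA : A ≠ ⊤) (hS : Setup K A F O x) : KeyIc A O x :=
  fun b hb hkey m hm y hy w hw hyw =>
    Fermat.Agent.S18.H5.key_ic hA hS b hb hkey m hm y hy w hw hyw

/-- Leaf `KeyGen` (landed `H69.key_gen_of_closed` and `H5.key_closed`). -/
theorem keyGen [IsAlgClosed K] [CharZero K] (hA : A ≠ ⊤) (hS : Setup K A F O x) :
    KeyGen A O x :=
  fun b hb hkey P hP =>
    Fermat.Agent.S18.H69.key_gen_of_closed hA hS b hb hkey
      (Fermat.Agent.S18.H5.key_closed hA hS hb hkey)
      (fun s hs P hP c hc => ev_disc hA hS b hb s hs P hP c hc)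
      (fun e he heO => mo_disc hS b e he heO) P hP

/-- Leaf `ClearOfHyps` (landed `H20.clear_of_hyps`). -/
theorem clearOfHyps : ClearOfHyps A O x :=
  fun b m hm u hu hord FIN TUBE IC EV MO =>
    Fermat.Agent.S18.H20.clear_of_hyps b m hm u hu hord FIN TUBE IC EV MO

/-- **(L1) Clearing lemma = Key Lemma (II) + tubes** — `H74.exists_clear` VERBATIM.
A one-unit whose divisor is divisible by `m` on a residue disc can be written there as the
divisor of `g^m` for a ONE-UNIT `g`. -/
theorem exists_clear [IsAlgClosed K] [CharZero K] (hA : A ≠ ⊤) (hS : Setup K A F O x)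
    (b : K) (hb : b ∈ A) (m : ℕ) (hm : m ≠ 0) (u : F) (hu : u - 1 ∈ O.nonunits)
    (hord : ∀ P : Place K F, InDisc A x b P → (m : ℤ) ∣ P.ord u) :
    ∃ g : F, g - 1 ∈ O.nonunits ∧
      ∀ P : Place K F, InDisc A x b P → (m : ℤ) * P.ord g = P.ord u :=
  exists_clear_of_three hA hS (keyIc hA hS) (keyGen hA hS) clearOfHyps b hb m hm u hu hord

end Fermat.Agent.S18.H49
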